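import Mathlib

/-!
# Subgroups of `GL₂` of a finite field without invariant lines

Only elementary facts are used: no classification of the subgroups.
-/

set_option autoImplicit false

noncomputable section

namespace FLTAgent.TWPrimes.Image

variable {k : Type} [Field k]

local notation "M2" => Matrix (Fin 2) (Fin 2) k

/-- No line is invariant under the subgroup. -/
def NoLine (H : Subgroup (GL (Fin 2) k)) : Prop :=
  ∀ v : Fin 2 → k, v ≠ 0 → ∃ h ∈ H, ∀ a : k, (h : M2).mulVec v ≠ a • v

/-- The subgroups we consider: no invariant line, also for the subgroups of index two, and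
eigenvalues in the field. -/
structure Big (G : Subgroup (GL (Fin 2) k)) : Prop where
  noLine : NoLine G
  index_two : ∀ H : Subgroup (GL (Fin 2) k), H ≤ G → H.relIndex G = 2 → NoLine H
  split : ∀ g ∈ G, ∃ a : k, a ^ 2 - Matrix.trace (g : M2) * a + Matrix.det (g : M2) = 0

/-- The trace zero matrices. -/
def tz : Submodule k M2 := LinearMap.ker (Matrix.traceLinearMap (Fin 2) k k)

theorem mem_tz {A : M2} : A ∈ tz ↔ Matrix.trace A = 0 := Iff.rfl

theorem finrank_tz : Module.finrank k ↥(tz : Submodule k M2) = 3 := by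
  have h := LinearMap.finrank_range_add_finrank_ker (Matrix.traceLinearMap (Fin 2) k k)
  have hr : LinearMap.range (Matrix.traceLinearMap (Fin 2) k k) = ⊤ :=
    LinearMap.range_eq_top.2 fun x => ⟨!![x, 0; 0, 0], by simp [Matrix.trace_fin_two]⟩
  rw [hr, finrank_top, Module.finrank_self, Module.finrank_matrix, Fintype.card_fin,
    Module.finrank_self] at h
  show Module.finrank k ↥(LinearMap.ker (Matrix.traceLinearMap (Fin 2) k k)) = 3
  omega

theorem mulVec_apply_two (A : M2) (v : Fin 2 → k) (i : Fin 2) :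
    A.mulVec v i = A i 0 * v 0 + A i 1 * v 1 := by
  simp [Matrix.mulVec, dotProduct, Fin.sum_univ_two]

/-- Vectors with the same eigenvalue of a non scalar matrix are proportional. -/
theorem eig_unique {A : M2} {r : k} (hA : A ≠ r • 1) {v w : Fin 2 → k} (hv : v ≠ 0)
    (h1 : A.mulVec v = r • v) (h2 : A.mulVec w = r • w) : ∃ b : k, w = b • v := by
  by_cases hd : v 0 * w 1 - v 1 * w 0 = 0
  · by_cases h0 : v 0 = 0
    · have h1' : v 1 ≠ 0 := fun h => hv (funext fun i => by fin_cases i <;> simp [h0, h])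
      have hw0 : w 0 = 0 := by
        rw [h0, zero_mul, zero_sub, neg_eq_zero] at hd
        exact (mul_eq_zero.1 hd).resolve_left h1'
      refine ⟨w 1 / v 1, funext fun i => ?_⟩
      fin_cases i <;> simp [h0, hw0, div_mul_cancel₀ _ h1']
    · refine ⟨w 0 / v 0, funext fun i => ?_⟩
      fin_cases i
      · simp [div_mul_cancel₀ _ h0]
      · simp only [Fin.mk_one, Fin.isValue, Pi.smul_apply, smul_eq_mul]
        field_simp
        linear_combination hd
  · refine absurd ?_ hA
    have e : ∀ i, (A i 0 - (r • (1 : M2)) i 0) * v 0 + (A i 1 - (r • (1 : M2)) i 1) * v 1 = 0 ∧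
        (A i 0 - (r • (1 : M2)) i 0) * w 0 + (A i 1 - (r • (1 : M2)) i 1) * w 1 = 0 := fun i => by
      have a1 := congrFun h1 i
      have a2 := congrFun h2 i
      rw [mulVec_apply_two] at a1 a2
      fin_cases i <;> simp at a1 a2 ⊢ <;> constructor <;> first
        | linear_combination a1
        | linear_combination a2
    ext i j
    obtain ⟨e1, e2⟩ := e i
    fin_cases j
    · refine sub_eq_zero.1 ((mul_eq_zero.1 ?_).resolve_right hd)
      linear_combination (norm := (simp only [Fin.zero_eta, Fin.isValue]; ring)) w 1 * e1 - v 1 * e2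
    · refine sub_eq_zero.1 ((mul_eq_zero.1 ?_).resolve_right hd)
      linear_combination (norm := (simp only [Fin.mk_one, Fin.isValue]; ring)) v 0 * e2 - w 0 * e1

/-- A split element has an eigenvector. -/
theorem exists_eigenvector {A : M2} {a : k}
    (ha : a ^ 2 - Matrix.trace A * a + Matrix.det A = 0) :
    ∃ v : Fin 2 → k, v ≠ 0 ∧ A.mulVec v = a • v := by
  have hd : Matrix.det (A - a • (1 : M2)) = 0 := by
    rw [Matrix.det_fin_two]
    rw [Matrix.trace_fin_two, Matrix.det_fin_two] at ha
    simp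
    linear_combination ha
  obtain ⟨v, hv, h⟩ := Matrix.exists_mulVec_eq_zero_iff.2 hd
  refine ⟨v, hv, ?_⟩
  rwa [Matrix.sub_mulVec, Matrix.smul_mulVec, Matrix.one_mulVec, sub_eq_zero] at h

theorem det_val_ne (g : GL (Fin 2) k) : Matrix.det (g : M2) ≠ 0 :=
  (Matrix.isUnit_iff_isUnit_det _).1 ⟨g, rfl⟩ |>.ne_zero

variable {G : Subgroup (GL (Fin 2) k)}

theorem exists_nonscalar (hG : Big G) : ∃ g ∈ G, ∀ a : k, (g : M2) ≠ a • 1 := by
  obtain ⟨g, hg, h⟩ := hG.noLine ![1, 0] (fun h => by simpa using congrFun h 0)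
  exact ⟨g, hg, fun a ha => h a (by rw [ha, Matrix.smul_mulVec, Matrix.one_mulVec])⟩

theorem scalar_commutes {A : M2} (r : k) {g : GL (Fin 2) k} (h : (g : M2) * A = A * (g : M2))
    {v : Fin 2 → k} (hv : A.mulVec v = r • v) :
    A.mulVec ((g : M2).mulVec v) = r • (g : M2).mulVec v := by
  rw [Matrix.mulVec_mulVec, ← h, ← Matrix.mulVec_mulVec, hv, Matrix.mulVec_smul]

variable (h2 : (2 : k) ≠ 0)

include h2 in
/-- No line of trace zero matrices is invariant. -/
theorem no_invariant_line (hG : Big G) {A : M2} (hA : A ≠ 0) (htr : Matrix.trace A = 0)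
    (h : ∀ g ∈ G, ∃ c : k, (g : M2) * A = c • (A * (g : M2))) : False := by
  rw [Matrix.trace_fin_two] at htr
  have hsc : ∀ r : k, A ≠ r • 1 := fun r hr => by
    subst hr
    simp [← two_mul, h2] at htr
    exact hA (by simp [htr])
  by_cases hd : Matrix.det A = 0
  · obtain ⟨v, hv, hv0⟩ := Matrix.exists_mulVec_eq_zero_iff.2 hd
    obtain ⟨g, hg, hgv⟩ := hG.noLine v hv
    obtain ⟨c, hc⟩ := h g hg
    have h1 : A.mulVec v = (0 : k) • v := by rw [hv0, zero_smul]
    have h2' : A.mulVec ((g : M2).mulVec v) = (0 : k) • (g : M2).mulVec v := by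
      rw [zero_smul]
      have e := congrArg (fun X : M2 => X.mulVec v) hc
      simp only [← Matrix.mulVec_mulVec, hv0, Matrix.mulVec_zero, Matrix.smul_mulVec] at e
      rcases eq_or_ne c 0 with rfl | hc0
      · rw [zero_smul] at hc
        exact absurd ((Units.mul_right_eq_zero g).1 hc) hA
      · exact (smul_eq_zero_iff_right hc0).1 e.symm
    obtain ⟨b, hb⟩ := eig_unique (hsc 0) hv h1 h2'
    exact hgv b hb
  have hc1 : ∀ g ∈ G, (g : M2) * A = A * (g : M2) ∨ (g : M2) * A = -(A * (g : M2)) := by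
    intro g hg
    obtain ⟨c, hc⟩ := h g hg
    have e := congrArg Matrix.det hc
    rw [Matrix.det_smul, Matrix.det_mul, Matrix.det_mul, Fintype.card_fin, mul_comm,
      ← one_mul (Matrix.det A * _), ← mul_assoc] at e
    have e2 : (c ^ 2 - 1) * (Matrix.det A * Matrix.det (g : M2)) = 0 := by linear_combination -e
    have e3 : (c - 1) * (c + 1) = 0 := by
      linear_combination (mul_eq_zero.1 e2).resolve_right (mul_ne_zero hd (det_val_ne g))
    rcases mul_eq_zero.1 e3 with h1 | h1
    · exact Or.inl (by rw [hc, sub_eq_zero.1 h1, one_smul])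
    · exact Or.inr (by rw [hc, eq_neg_of_add_eq_zero_left h1, neg_one_smul])
  -- the commutant
  let H : Subgroup (GL (Fin 2) k) :=
    { carrier := {g | g ∈ G ∧ (g : M2) * A = A * (g : M2)}
      one_mem' := ⟨one_mem G, by simp⟩
      mul_mem' := fun {a b} ha hb => ⟨mul_mem ha.1 hb.1, by
        rw [Units.val_mul, mul_assoc, hb.2, ← mul_assoc, ha.2, mul_assoc]⟩
      inv_mem' := fun {a} ha => ⟨inv_mem ha.1, by
        refine (Units.isUnit a).mul_left_cancel ?_
        rw [← mul_assoc, ← Units.val_mul, mul_inv_cancel, Units.val_one, one_mul, ← mul_assoc,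
          ha.2, mul_assoc, ← Units.val_mul, mul_inv_cancel, Units.val_one, mul_one]⟩ }
  have hHN : NoLine H := by
    by_cases hall : ∀ g ∈ G, (g : M2) * A = A * (g : M2)
    · rw [show H = G from le_antisymm (fun g hg => hg.1) fun g hg => ⟨hg, hall g hg⟩]
      exact hG.noLine
    push Not at hall
    obtain ⟨g₀, hg₀, hg₀A⟩ := hall
    have hg₀A' := (hc1 g₀ hg₀).resolve_left hg₀A
    refine hG.index_two H (fun g hg => hg.1) ?_
    rw [Subgroup.relIndex, Subgroup.index_eq_two_iff]
    refine ⟨⟨g₀, hg₀⟩, fun b => ?_⟩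
    have hne : A * (b.1 * g₀ : GL (Fin 2) k).val ≠ -(A * (b.1 * g₀ : GL (Fin 2) k).val) := fun e => by
      rw [eq_neg_iff_add_eq_zero, ← two_smul k, smul_eq_zero] at e
      exact hA ((Units.mul_left_eq_zero _).1 (e.resolve_left h2))
    rcases hc1 b.1 b.2 with hb | hb
    · refine Or.inr ⟨⟨b.2, hb⟩, fun hmem => hne ?_⟩
      have e : ((b.1 * g₀ : GL (Fin 2) k) : M2) * A = A * _ := (Subgroup.mem_subgroupOf.1 hmem).2
      rw [Units.val_mul, mul_assoc, hg₀A', mul_neg, ← mul_assoc, hb, mul_assoc] at e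
      rw [Units.val_mul]
      exact e.symm
    · refine Or.inl ⟨⟨mul_mem b.2 hg₀, ?_⟩, fun hmem => ?_⟩
      · show ((b.1 * g₀ : GL (Fin 2) k) : M2) * A = A * ((b.1 * g₀ : GL (Fin 2) k) : M2)
        rw [Units.val_mul, mul_assoc, hg₀A', mul_neg, ← mul_assoc, hb, neg_mul, neg_neg, mul_assoc]
      · have e : (b.1 : M2) * A = A * (b.1 : M2) := (Subgroup.mem_subgroupOf.1 hmem).2
        rw [hb, eq_comm, eq_neg_iff_add_eq_zero, ← two_smul k, smul_eq_zero] at e
        exact hA ((Units.mul_left_eq_zero _).1 (e.resolve_left h2))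
  by_cases hr : ∃ r : k, r ^ 2 = -Matrix.det A
  · obtain ⟨r, hr⟩ := hr
    obtain ⟨v, hv, hAv⟩ := exists_eigenvector (A := A) (a := r)
      (by rw [Matrix.trace_fin_two, htr]; linear_combination hr)
    obtain ⟨g, hg, hgv⟩ := hHN v hv
    obtain ⟨b, hb⟩ := eig_unique (hsc r) hv hAv (scalar_commutes r hg.2 hAv)
    exact hgv b hb
  · obtain ⟨g, hg, hgv⟩ := hHN ![1, 0] (fun h => by simpa using congrFun h 0)
    obtain ⟨a, ha⟩ := hG.split g hg.1
    obtain ⟨v, hv, hgv'⟩ := exists_eigenvector ha
    have hgsc : (g : M2) ≠ a • 1 := fun e =>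
      hgv a (by rw [e, Matrix.smul_mulVec, Matrix.one_mulVec])
    have hAv : (g : M2).mulVec (A.mulVec v) = a • A.mulVec v := by
      rw [Matrix.mulVec_mulVec, hg.2, ← Matrix.mulVec_mulVec, hgv', Matrix.mulVec_smul]
    obtain ⟨b, hb⟩ := eig_unique hgsc hv hgv' hAv
    refine hr ⟨b, ?_⟩
    have e : A * A = (-Matrix.det A) • (1 : M2) := by
      ext i j
      fin_cases i <;> fin_cases j <;> simp [Matrix.mul_apply, Fin.sum_univ_two, Matrix.det_fin_two]
      · linear_combination (A 0 0) * htr
      · linear_combination (A 0 1) * htr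
      · linear_combination (A 1 0) * htr
      · linear_combination (A 1 1) * htr
    have e2 := congrArg (fun X : M2 => X.mulVec v) e
    simp only [← Matrix.mulVec_mulVec, hb, Matrix.mulVec_smul, smul_smul, Matrix.smul_mulVec,
      Matrix.one_mulVec] at e2
    rw [pow_two]
    exact smul_left_injective k hv e2

include h2 in
/-- The commutator of two independent trace zero matrices is not zero. -/
theorem commute_tz {A B : M2} (hA : A ≠ 0) (htA : Matrix.trace A = 0) (htB : Matrix.trace B = 0)
    (h : A * B = B * A) : ∃ t : k, B = t • A := by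
  rw [Matrix.trace_fin_two, add_comm] at htA htB
  have a11 : A 1 1 = -A 0 0 := eq_neg_of_add_eq_zero_left htA
  have b11 : B 1 1 = -B 0 0 := eq_neg_of_add_eq_zero_left htB
  have e00 := congrFun (congrFun h 0) 0
  have e01 := congrFun (congrFun h 0) 1
  have e10 := congrFun (congrFun h 1) 0
  simp [Matrix.mul_apply, Fin.sum_univ_two, a11, b11] at e00 e01 e10
  have m1 : A 0 1 * B 1 0 = A 1 0 * B 0 1 := by linear_combination e00
  have m2 : A 0 0 * B 0 1 = A 0 1 * B 0 0 := mul_left_cancel₀ h2 (by linear_combination e01)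
  have m3 : A 0 0 * B 1 0 = A 1 0 * B 0 0 := mul_left_cancel₀ h2 (by linear_combination -e10)
  have hsolve : ∀ t : k, B 0 0 = t * A 0 0 → B 0 1 = t * A 0 1 → B 1 0 = t * A 1 0 →
      B = t • A := fun t h0 h1 h3 => by
    ext i j
    fin_cases i <;> fin_cases j <;> simp [a11, b11, h0, h1, h3]
  by_cases h00 : A 0 0 = 0
  · by_cases h01 : A 0 1 = 0
    · have h10 : A 1 0 ≠ 0 := fun h10 => hA (by
        ext i j
        fin_cases i <;> fin_cases j <;> simp [a11, h00, h01, h10])
      rw [h00, zero_mul] at m3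
      rw [h01, zero_mul] at m1
      refine ⟨B 1 0 / A 1 0, hsolve _ ?_ ?_ (by field_simp)⟩
      · rw [h00, mul_zero]; exact (mul_eq_zero.1 m3.symm).resolve_left h10
      · rw [h01, mul_zero]; exact (mul_eq_zero.1 m1.symm).resolve_left h10
    · rw [h00, zero_mul] at m2
      refine ⟨B 0 1 / A 0 1, hsolve _ ?_ (by field_simp) ?_⟩
      · rw [h00, mul_zero]; exact (mul_eq_zero.1 m2.symm).resolve_left h01
      · field_simp; linear_combination m1
  · refine ⟨B 0 0 / A 0 0, hsolve _ (by field_simp) ?_ ?_⟩ <;> field_simp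
    · linear_combination m2
    · linear_combination m3

theorem conj_mul (g : GL (Fin 2) k) (X Y : M2) :
    ((g : M2) * X * (g⁻¹ : GL (Fin 2) k)) * ((g : M2) * Y * (g⁻¹ : GL (Fin 2) k)) =
      (g : M2) * (X * Y) * (g⁻¹ : GL (Fin 2) k) := by
  simp [mul_assoc]

include h2 in
/-- The trace zero matrices are an irreducible representation. -/
theorem tz_irreducible (hG : Big G) (W : Submodule k M2) (hW : W ≤ tz)
    (hst : ∀ g ∈ G, ∀ X ∈ W, (g : M2) * X * (g⁻¹ : GL (Fin 2) k) ∈ W) : W = ⊥ ∨ tz ≤ W := by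
  by_contra hne
  push Not at hne
  obtain ⟨hne, hlt⟩ := hne
  obtain ⟨A, hAW, hA⟩ := (Submodule.ne_bot_iff W).1 hne
  have htA : Matrix.trace A = 0 := hW hAW
  obtain ⟨g₀, hg₀, hg₀A⟩ : ∃ g ∈ G, ∀ c : k, (g : M2) * A * (g⁻¹ : GL (Fin 2) k) ≠ c • A := by
    by_contra hcon
    push Not at hcon
    refine no_invariant_line h2 hG hA htA fun g hg => ?_
    obtain ⟨c, hc⟩ := hcon g hg
    exact ⟨c, by rw [← smul_mul_assoc, ← hc, Units.inv_mul_cancel_right]⟩
  set B := (g₀ : M2) * A * (g₀⁻¹ : GL (Fin 2) k)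
  have hBW : B ∈ W := hst g₀ hg₀ A hAW
  have htB : Matrix.trace B = 0 := hW hBW
  have hind : LinearIndependent k ![A, B] := by
    rw [LinearIndependent.pair_iff' hA]
    exact fun c hc => hg₀A c hc.symm
  have hspan : Submodule.span k (Set.range ![A, B]) = W := by
    refine Submodule.eq_of_le_of_finrank_le (Submodule.span_le.2 ?_) ?_
    · rintro x ⟨i, rfl⟩
      fin_cases i <;> simpa
    · rw [finrank_span_eq_card hind, Fintype.card_fin]
      have h3 := Submodule.finrank_lt_finrank_of_lt (lt_of_le_not_ge hW hlt)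
      rw [finrank_tz] at h3
      omega
  set C := A * B - B * A
  have hC : C ≠ 0 := fun h => by
    obtain ⟨t, ht⟩ := commute_tz h2 hA htA htB (sub_eq_zero.1 h)
    exact hg₀A t ht
  have htC : Matrix.trace C = 0 := by rw [Matrix.trace_sub, Matrix.trace_mul_comm, sub_self]
  have hcomm : ∀ X ∈ W, ∀ Y ∈ W, ∃ c : k, X * Y - Y * X = c • C := by
    intro X hX Y hY
    rw [← hspan, Matrix.range_cons, Matrix.range_cons, Matrix.range_empty, Set.union_empty,
      Set.singleton_union, Submodule.mem_span_pair] at hX hY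
    obtain ⟨a, b, rfl⟩ := hX
    obtain ⟨a', b', rfl⟩ := hY
    refine ⟨a * b' - b * a', ?_⟩
    simp only [C, add_mul, mul_add, smul_mul_assoc, mul_smul_comm]
    module
  refine no_invariant_line h2 hG hC htC fun g hg => ?_
  obtain ⟨c, hc⟩ := hcomm _ (hst g hg A hAW) _ (hst g hg B hBW)
  refine ⟨c, ?_⟩
  rw [conj_mul, conj_mul, ← sub_mul, ← mul_sub] at hc
  rw [← smul_mul_assoc, ← hc, Units.inv_mul_cancel_right]

include h2 in
/-- A normal subgroup with abelian quotient still has no invariant line. -/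
theorem noLine_of_commutators (hG : Big G) (N : Subgroup (GL (Fin 2) k))
    (hn : ∀ g ∈ G, ∀ n ∈ N, g * n * g⁻¹ ∈ N) (hc : ∀ g ∈ G, ∀ h ∈ G, g * h * g⁻¹ * h⁻¹ ∈ N) :
    NoLine N := by
  intro v hv
  by_contra hno
  push Not at hno
  by_cases hsc : ∀ n ∈ N, ∃ a : k, (n : M2) = a • 1
  · obtain ⟨g₀, hg₀, hg₀sc⟩ := exists_nonscalar hG
    set t := Matrix.trace (g₀ : M2)
    refine no_invariant_line h2 hG (A := (g₀ : M2) - (t / 2) • 1) (fun h => hg₀sc _ (sub_eq_zero.1 h))
      (by rw [Matrix.trace_sub, Matrix.trace_smul, Matrix.trace_one, Fintype.card_fin, smul_eq_mul,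
            Nat.cast_ofNat, div_mul_cancel₀ _ h2, sub_self]) fun h hh => ?_
    obtain ⟨c, hc'⟩ := hsc _ (hc h hh g₀ hg₀)
    have e : (h : M2) * g₀ * (h⁻¹ : GL (Fin 2) k) = c • (g₀ : M2) := by
      have e1 := congrArg (· * (g₀ : M2)) hc'
      simp only [Units.val_mul, smul_mul_assoc, one_mul, Units.inv_mul_cancel_right] at e1
      exact e1
    have et := congrArg Matrix.trace e
    rw [Matrix.trace_smul, Matrix.trace_mul_comm, ← mul_assoc, ← Units.val_mul, inv_mul_cancel,
      Units.val_one, one_mul, smul_eq_mul] at et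
    refine ⟨c, ?_⟩
    have e2 : (h : M2) * g₀ = c • ((g₀ : M2) * h) := by
      rw [← smul_mul_assoc, ← e, Units.inv_mul_cancel_right]
    rw [mul_sub, sub_mul, mul_smul_comm, smul_mul_assoc, mul_one, one_mul, smul_sub, e2,
      smul_smul]
    congr 2
    change t = c * t at et
    linear_combination (1 / 2 : k) * et
  · push Not at hsc
    obtain ⟨n, hnN, hnsc⟩ := hsc
    obtain ⟨g, hg, hgv⟩ := hG.noLine v hv
    set w := (g : M2).mulVec v
    have hwline : ∀ m ∈ N, ∃ b : k, (m : M2).mulVec w = b • w := fun m hm => by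
      have hm' : g⁻¹ * m * g ∈ N := by
        have := hn g⁻¹ (inv_mem hg) m hm
        rwa [inv_inv] at this
      obtain ⟨b, hb⟩ := hno _ hm'
      refine ⟨b, ?_⟩
      have e := congrArg (g : M2).mulVec hb
      rw [Matrix.mulVec_mulVec, ← Units.val_mul, show g * (g⁻¹ * m * g) = m * g by group,
        Units.val_mul, Matrix.mulVec_smul, ← Matrix.mulVec_mulVec] at e
      exact e
    set d := v 0 * w 1 - v 1 * w 0
    have hd : d ≠ 0 := fun hd => by
      by_cases h0 : v 0 = 0
      · have h1 : v 1 ≠ 0 := fun h => hv (funext fun i => by fin_cases i <;> simp [h0, h])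
        refine hgv (w 1 / v 1) (funext fun i => ?_)
        have hw0 : w 0 = 0 := by
          simp only [d, h0, zero_mul, zero_sub, neg_eq_zero] at hd
          exact (mul_eq_zero.1 hd).resolve_left h1
        show w i = _
        fin_cases i <;> simp [h0, hw0, div_mul_cancel₀ _ h1]
      · refine hgv (w 0 / v 0) (funext fun i => ?_)
        show w i = _
        fin_cases i
        · simp [div_mul_cancel₀ _ h0]
        · simp only [Fin.mk_one, Fin.isValue, Pi.smul_apply, smul_eq_mul]
          field_simp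
          simp only [d] at hd
          linear_combination hd
    set A : M2 := !![v 0 * w 1 + w 0 * v 1, -2 * v 0 * w 0; 2 * v 1 * w 1, -(v 0 * w 1 + w 0 * v 1)]
    have hAv : A.mulVec v = d • v := funext fun i => by
      rw [mulVec_apply_two]; fin_cases i <;> simp [A, d] <;> ring
    have hAw : A.mulVec w = (-d) • w := funext fun i => by
      rw [mulVec_apply_two]; fin_cases i <;> simp [A, d] <;> ring
    have hA : A ≠ 0 := fun h => by
      rw [h, Matrix.zero_mulVec] at hAv
      exact smul_ne_zero hd hv hAv.symm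
    have hAt : Matrix.trace A = 0 := by simp [A, Matrix.trace_fin_two]
    let W : Submodule k M2 := tz ⊓
      ⨅ m ∈ N, LinearMap.ker (LinearMap.mulLeft k (m : M2) - LinearMap.mulRight k (m : M2))
    have hWmem : ∀ X, X ∈ W ↔ Matrix.trace X = 0 ∧ ∀ m ∈ N, (m : M2) * X = X * (m : M2) :=
      fun X => by simp [W, mem_tz, Submodule.mem_iInf, sub_eq_zero]
    have hAW : A ∈ W := by
      refine (hWmem A).2 ⟨hAt, fun m hm => ?_⟩
      obtain ⟨a, ha⟩ := hno m hm
      obtain ⟨b, hb⟩ := hwline m hm
      by_contra hne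
      obtain ⟨x, hx⟩ := eig_unique (A := (m : M2) * A - A * (m : M2)) (r := 0) (v := v) (w := w)
        (by simpa using sub_ne_zero.2 hne) hv
        (by rw [Matrix.sub_mulVec, ← Matrix.mulVec_mulVec, ← Matrix.mulVec_mulVec, hAv, ha,
          Matrix.mulVec_smul, Matrix.mulVec_smul, hAv, ha, zero_smul, smul_comm, sub_self])
        (by rw [Matrix.sub_mulVec, ← Matrix.mulVec_mulVec, ← Matrix.mulVec_mulVec, hAw, hb,
          Matrix.mulVec_smul, Matrix.mulVec_smul, hAw, hb, zero_smul, smul_comm, sub_self])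
      exact hgv x hx
    rcases tz_irreducible h2 hG W inf_le_left (fun h hh X hX => by
        rw [hWmem] at hX ⊢
        refine ⟨?_, fun m hm => ?_⟩
        · rw [Matrix.trace_mul_comm, ← mul_assoc, ← Units.val_mul, inv_mul_cancel, Units.val_one,
            one_mul]
          exact hX.1
        · have hm' : h⁻¹ * m * h ∈ N := by
            have := hn h⁻¹ (inv_mem hh) m hm
            rwa [inv_inv] at this
          have e := hX.2 _ hm'
          simp only [Units.val_mul] at e
          have e2 := congrArg (fun Y : M2 => (h : M2) * Y * (h⁻¹ : GL (Fin 2) k)) e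
          simp only [← mul_assoc, Units.mul_inv_cancel_right] at e2
          simp only [mul_assoc] at e2 ⊢
          simpa using e2) with hW | hW
    · exact hA ((Submodule.mem_bot k).1 (hW ▸ hAW))
    · have c1 := ((hWmem !![0, 1; 0, 0]).1 (hW (by simp [mem_tz, Matrix.trace_fin_two]))).2 n hnN
      have c2 := ((hWmem !![0, 0; 1, 0]).1 (hW (by simp [mem_tz, Matrix.trace_fin_two]))).2 n hnN
      have x1 := congrFun (congrFun c1 0) 0
      have x2 := congrFun (congrFun c1 0) 1
      have x3 := congrFun (congrFun c2 0) 0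
      simp [Matrix.mul_apply, Fin.sum_univ_two] at x1 x2 x3
      refine hnsc ((n : M2) 0 0) ?_
      ext i j
      fin_cases i <;> fin_cases j <;> simp [← x1, x2, x3]

include h2 in
/-- A subgroup without invariant line has an element with two distinct eigenvalues. -/
theorem exists_distinct {N : Subgroup (GL (Fin 2) k)} (hN : NoLine N) :
    ∃ h ∈ N, Matrix.trace (h : M2) ^ 2 - 4 * Matrix.det (h : M2) ≠ 0 := by
  by_contra hcon
  push Not at hcon
  have key : ∀ h ∈ N, ∃ (a : k) (M : M2), (h : M2) = a • 1 + M ∧ a ≠ 0 ∧ Matrix.trace M = 0 ∧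
      M * M = 0 := by
    intro h hh
    set a := Matrix.trace (h : M2) / 2
    have h4 := hcon h hh
    refine ⟨a, (h : M2) - a • 1, by abel, fun ha => ?_, ?_, ?_⟩
    · simp only [a, div_eq_zero_iff, h2, or_false] at ha
      rw [ha] at h4
      refine det_val_ne h ((mul_eq_zero.1 (?_ : (4 : k) * _ = 0)).resolve_left ?_)
      · linear_combination -h4
      · rw [show (4 : k) = 2 * 2 by norm_num]; exact mul_ne_zero h2 h2
    · rw [Matrix.trace_sub, Matrix.trace_smul, Matrix.trace_one, Fintype.card_fin, smul_eq_mul,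
        Nat.cast_ofNat, div_mul_cancel₀ _ h2, sub_self]
    · have ha : (2 : k) * a = (h : M2) 0 0 + (h : M2) 1 1 := by
        simp only [a, Matrix.trace_fin_two]; field_simp
      rw [Matrix.trace_fin_two, Matrix.det_fin_two] at h4
      ext i j
      fin_cases i <;> fin_cases j <;> simp [Matrix.mul_apply, Fin.sum_univ_two]
      · refine mul_left_cancel₀ h2 (mul_left_cancel₀ h2 ?_)
        linear_combination h4 + (2 * a - 3 * (h : M2) 0 0 + (h : M2) 1 1) * ha
      · linear_combination -((h : M2) 0 1) * ha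
      · linear_combination -((h : M2) 1 0) * ha
      · refine mul_left_cancel₀ h2 (mul_left_cancel₀ h2 ?_)
        linear_combination h4 + (2 * a + (h : M2) 0 0 - 3 * (h : M2) 1 1) * ha
  obtain ⟨h, hh, hhv⟩ := hN ![1, 0] (fun h => by simpa using congrFun h 0)
  obtain ⟨a, M, hM, ha, htM, hM2⟩ := key h hh
  have hM0 : M ≠ (0 : k) • 1 := fun e => by
    rw [zero_smul] at e
    exact hhv a (by rw [hM, e, add_zero, Matrix.smul_mulVec, Matrix.one_mulVec])
  have hdM : Matrix.det M = 0 := by
    have := congrArg Matrix.det hM2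
    simpa [Matrix.det_mul] using this
  obtain ⟨v, hv, hMv⟩ := Matrix.exists_mulVec_eq_zero_iff.2 hdM
  obtain ⟨h', hh', hh'v⟩ := hN v hv
  obtain ⟨a', M', hM', ha', htM', hM'2⟩ := key h' hh'
  set T := Matrix.trace (M * M')
  have hT : T = 0 := by
    have e1 := hcon _ (mul_mem hh hh')
    have e2 := hcon _ (mul_mem (mul_mem hh hh) hh')
    have p1 : ((h * h' : GL (Fin 2) k) : M2) = (a * a') • 1 + (a' • M + a • M' + M * M') := by
      rw [Units.val_mul, hM, hM']
      simp only [mul_add, add_mul, smul_mul_assoc, mul_smul_comm, one_mul, mul_one]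
      module
    have p2 : ((h * h * h' : GL (Fin 2) k) : M2) =
        (a * a * a') • 1 + ((2 * a * a') • M + (a * a) • M' + (2 * a) • (M * M')) := by
      rw [Units.val_mul, Units.val_mul, hM, hM']
      simp only [mul_add, add_mul, smul_mul_assoc, mul_smul_comm, one_mul, mul_one, smul_smul,
        smul_add, hM2, add_zero]
      module
    have d1 : Matrix.det ((h * h' : GL (Fin 2) k) : M2) = (a * a') ^ 2 := by
      have q : ∀ (x : k) (X : M2), Matrix.trace X = 0 → X * X = 0 →
          Matrix.det (x • 1 + X) = x ^ 2 := fun x X hX hX2 => by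
        rw [Matrix.trace_fin_two] at hX
        have := congrFun (congrFun hX2 0) 0
        simp [Matrix.mul_apply, Fin.sum_univ_two] at this
        simp [Matrix.det_fin_two]
        linear_combination -this + (x + X 0 0) * hX
      rw [Units.val_mul, Matrix.det_mul, hM, hM', q _ _ htM hM2, q _ _ htM' hM'2]
      ring
    have d2 : Matrix.det ((h * h * h' : GL (Fin 2) k) : M2) = (a * a * a') ^ 2 := by
      have q : Matrix.det (h : M2) = a ^ 2 := by
        rw [hM]
        rw [Matrix.trace_fin_two] at htM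
        have := congrFun (congrFun hM2 0) 0
        simp [Matrix.mul_apply, Fin.sum_univ_two] at this
        simp [Matrix.det_fin_two]
        linear_combination -this + (a + M 0 0) * htM
      rw [Units.val_mul, Matrix.det_mul] at d1
      rw [Units.val_mul, Units.val_mul, Matrix.det_mul, Matrix.det_mul, mul_assoc, d1, q]
      ring
    have t1 : Matrix.trace ((h * h' : GL (Fin 2) k) : M2) = 2 * (a * a') + T := by
      rw [p1]; simp [htM, htM', Matrix.trace_one, T]; ring
    have t2 : Matrix.trace ((h * h * h' : GL (Fin 2) k) : M2) =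
        2 * (a * a * a') + 2 * a * T := by
      rw [p2]; simp [htM, htM', Matrix.trace_one, T]; ring
    rw [t1, d1] at e1
    rw [t2, d2] at e2
    refine (mul_eq_zero.1 (?_ : (8 * a ^ 3 * a') * T = 0)).resolve_left ?_
    · linear_combination 4 * a ^ 2 * e1 - e2
    · rw [show (8 : k) = 2 * 2 * 2 by norm_num]
      simp [h2, ha, ha']
  have hanti : M * M' + M' * M = 0 := by
    rw [Matrix.trace_fin_two] at htM htM'
    simp [T, Matrix.trace_fin_two, Matrix.mul_apply, Fin.sum_univ_two] at hT
    ext i j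
    fin_cases i <;> fin_cases j <;> simp [Matrix.mul_apply, Fin.sum_univ_two]
    · linear_combination hT - M 1 1 * htM' + M' 0 0 * htM
    · linear_combination M 0 1 * htM' + M' 0 1 * htM
    · linear_combination M 1 0 * htM' + M' 1 0 * htM
    · linear_combination hT - M' 0 0 * htM + M 1 1 * htM'
  have e1 : M.mulVec (M'.mulVec v) = (0 : k) • M'.mulVec v := by
    rw [zero_smul, Matrix.mulVec_mulVec, eq_neg_of_add_eq_zero_left hanti, Matrix.neg_mulVec,
      ← Matrix.mulVec_mulVec, hMv, Matrix.mulVec_zero, neg_zero]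
  obtain ⟨b, hb⟩ := eig_unique hM0 hv (by rw [hMv, zero_smul]) e1
  exact hh'v (a' + b) (by
    rw [hM', Matrix.add_mulVec, Matrix.smul_mulVec, Matrix.one_mulVec, hb, add_smul])

end FLTAgent.TWPrimes.Image
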