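import Fermat.Agent.TWPrimes.Image.Counting
import Fermat.Agent.Lowering.P1.Primes.Finite

/-!
# Cocycles of the adjoint representation of the image

A cocycle with values in the trace zero matrices, twisted by a power of the determinant, is a
coboundary when the twist is one and the determinant takes every value of the prime field, and
also when it is a coboundary at each element.
-/

set_option autoImplicit false
set_option linter.unusedSectionVars false

noncomputable section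

namespace FLTAgent.TWPrimes.Image

variable {k : Type} [Field k]

local notation "M2" => Matrix (Fin 2) (Fin 2) k
local notation "GL2" => GL (Fin 2) k

/-- Conjugation, twisted by a power of the determinant. -/
def adj (e : ℕ) (g : GL2) : M2 →ₗ[k] M2 :=
  (Matrix.det (g : M2) ^ e) •
    (LinearMap.mulLeft k (g : M2) ∘ₗ LinearMap.mulRight k ((g⁻¹ : GL2) : M2))

theorem adj_apply (e : ℕ) (g : GL2) (X : M2) :
    adj e g X = (Matrix.det (g : M2) ^ e) • ((g : M2) * X * (g⁻¹ : GL2)) := by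
  simp [adj, mul_assoc]

theorem adj_one (e : ℕ) (X : M2) : adj e 1 X = X := by simp [adj_apply]

theorem adj_mul (e : ℕ) (g h : GL2) (X : M2) : adj e (g * h) X = adj e g (adj e h X) := by
  simp only [adj_apply, mul_inv_rev, Units.val_mul, Matrix.det_mul, mul_pow, mul_smul_comm,
    smul_mul_assoc, smul_smul, mul_assoc]

theorem trace_adj (e : ℕ) (g : GL2) {X : M2} (h : Matrix.trace X = 0) :
    Matrix.trace (adj e g X) = 0 := by
  rw [adj_apply, Matrix.trace_smul, Matrix.trace_units_conj, h, smul_zero]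

theorem adj_up (e : ℕ) (x : k) (X : M2) :
    adj e (up x) X = !![X 0 0 + x * X 1 0, X 0 1 + x * (X 1 1 - X 0 0) - x ^ 2 * X 1 0;
      X 1 0, X 1 1 - x * X 1 0] := by
  have hd : Matrix.det (up x : M2) = 1 := by simp [Matrix.det_fin_two]
  have hi : ((up x)⁻¹ : GL2).val = !![1, -x; 0, 1] := rfl
  rw [adj_apply, hd, one_pow, one_smul, hi, up_val]
  ext i j
  fin_cases i <;> fin_cases j <;>
    simp [Matrix.mul_apply, Matrix.vecMul, dotProduct, Fin.sum_univ_two] <;> ring

theorem adj_upper_entries (e : ℕ) {g : GL2} (h10 : (g : M2) 1 0 = 0) (X : M2) :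
    Matrix.det (g : M2) * adj e g X 1 0 =
        Matrix.det (g : M2) ^ e * ((g : M2) 1 1 ^ 2 * X 1 0) ∧
      Matrix.det (g : M2) * adj e g X 0 0 = Matrix.det (g : M2) ^ e *
        (((g : M2) 0 0 * X 0 0 + (g : M2) 0 1 * X 1 0) * (g : M2) 1 1) ∧
      Matrix.det (g : M2) * adj e g X 0 1 = Matrix.det (g : M2) ^ e *
        (((g : M2) 0 0 * X 0 1 + (g : M2) 0 1 * X 1 1) * (g : M2) 0 0 -
          ((g : M2) 0 0 * X 0 0 + (g : M2) 0 1 * X 1 0) * (g : M2) 0 1) := by
  have hc : ∀ (c a : k) (Y : M2) (i j : Fin 2),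
      a * (c • ((g : M2) * X * Y)) i j = c * ((g : M2) * X * (a • Y)) i j := fun c a Y i j => by
    rw [mul_smul_comm, Matrix.smul_apply, Matrix.smul_apply, smul_eq_mul, smul_eq_mul]; ring
  refine ⟨?_, ?_, ?_⟩ <;>
    · rw [adj_apply, hc, val_inv_eq]
      simp [Matrix.mul_apply, Fin.sum_univ_two, h10]
      all_goals first | exact Or.inl trivial | (left; ring) | ring

variable (p : ℕ) [Fact p.Prime] [CharP k p] [Finite k] (hp : p ≠ 2)

include hp in
/-- A determinant class is reached by a triangular element. -/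
theorem exists_upper_det {G : Subgroup GL2} (hG : Big G)
    (hU : ¬ p ∣ (G ⊓ upperGrp k).relIndex G) {x₀ : k} (hx₀ : x₀ ∈ addA G) (hx0 : x₀ ≠ 0)
    {g : GL2} (hg : g ∈ G) :
    ∃ g' ∈ G, (g' : M2) 1 0 = 0 ∧ Matrix.det (g' : M2) = Matrix.det (g : M2) := by
  set u := g * up x₀ * g⁻¹
  have hu : u ∈ detOne G := mem_detOne.2 ⟨mul_mem (mul_mem hg hx₀) (inv_mem hg), by
    simp only [u, Units.val_mul]
    rw [Matrix.det_units_conj, upperGrp_det (mem_upperGrp.2 ⟨x₀, rfl⟩)]⟩
  have hup : u ^ p = 1 := by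
    rw [conj_pow, up_pow, CharP.cast_eq_zero, zero_mul, up_zero, mul_one, mul_inv_cancel]
  obtain ⟨h, hh, y, hy⟩ := exists_conj_up p hU hu hup
  obtain ⟨hhG, hhd⟩ := mem_detOne.1 hh
  refine ⟨h⁻¹ * g, mul_mem (inv_mem hhG) hg, ?_, ?_⟩
  · have e : up y * (h⁻¹ * g) = (h⁻¹ * g) * up x₀ := by rw [hy]; simp only [u]; group
    have e' : ((up y * (h⁻¹ * g) : GL2) : M2) 1 1 = ((h⁻¹ * g * up x₀ : GL2) : M2) 1 1 := by rw [e]
    simp [Matrix.mul_apply, Fin.sum_univ_two] at e' ⊢
    exact e'.resolve_right hx0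
  · rw [Units.val_mul, Matrix.det_mul]
    have e : Matrix.det ((h⁻¹ : GL2) : M2) = 1 := by
      have := congrArg Matrix.det (congrArg Units.val (inv_mul_cancel h))
      rwa [Units.val_mul, Matrix.det_mul, hhd, mul_one, Units.val_one, Matrix.det_one] at this
    rw [e, one_mul]

/-- The multipliers of a function on a group of scalars. -/
def multipliers (A : AddSubgroup k) (E : k → k) (hE : ∀ x ∈ A, ∀ y ∈ A, E (x + y) = E x + E y) :
    Subring k where
  carrier := {μ | ∀ x ∈ A, μ * x ∈ A ∧ E (μ * x) = μ * E x}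
  one_mem' := fun x hx => by simp [hx]
  zero_mem' := fun x hx => by
    have h0 := hE 0 (zero_mem A) 0 (zero_mem A)
    rw [add_zero, left_eq_add] at h0
    simp [zero_mem, h0]
  mul_mem' := fun {a b} ha hb x hx => by
    obtain ⟨h1, h2⟩ := hb x hx
    obtain ⟨h3, h4⟩ := ha _ h1
    rw [mul_assoc a b x, mul_assoc a b]
    exact ⟨h3, by rw [h4, h2]⟩
  add_mem' := fun {a b} ha hb x hx => by
    obtain ⟨h1, h2⟩ := ha x hx
    obtain ⟨h3, h4⟩ := hb x hx
    rw [add_mul, hE _ h1 _ h3, h2, h4, add_mul]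
    exact ⟨add_mem h1 h3, rfl⟩
  neg_mem' := fun {a} ha x hx => by
    obtain ⟨h1, h2⟩ := ha x hx
    have hn : ∀ y ∈ A, E (-y) = -E y := fun y hy => by
      have h0 := hE 0 (zero_mem A) 0 (zero_mem A)
      rw [add_zero, left_eq_add] at h0
      have := hE y hy (-y) (neg_mem hy)
      rw [add_neg_cancel, h0] at this
      linear_combination -this
    rw [neg_mul, hn _ h1, h2, neg_mul]
    exact ⟨neg_mem h1, rfl⟩

/-- A group of scalars with many multipliers is a line. -/
theorem line_of_multipliers {A : AddSubgroup k} (F : Subring k)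
    (hF : ∀ μ ∈ F, ∀ x ∈ A, μ * x ∈ A) (hcard : Nat.card ↥A < 2 * Nat.card ↥F) {x₀ : k}
    (hx₀ : x₀ ∈ A) (hx0 : x₀ ≠ 0) {y : k} (hy : y ∈ A) : ∃ μ ∈ F, y = μ * x₀ := by
  by_contra hno
  push Not at hno
  let f : ↥F × ↥F → ↥A := fun a => ⟨a.1 * x₀ + a.2 * y,
    add_mem (hF _ a.1.2 _ hx₀) (hF _ a.2.2 _ hy)⟩
  have hf : Function.Injective f := by
    rintro ⟨a, b⟩ ⟨a', b'⟩ h
    have h' : (a : k) * x₀ + b * y = a' * x₀ + b' * y := congrArg Subtype.val h
    by_cases hb : (b : k) = b'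
    · rw [hb, add_left_inj] at h'
      exact Prod.ext (Subtype.ext (mul_right_cancel₀ hx0 h')) (Subtype.ext hb)
    · exfalso
      have hne : (b : k) - b' ≠ 0 := sub_ne_zero.2 hb
      letI := Fintype.ofFinite k
      set d := (b : k) - b'
      have hinv : d⁻¹ ∈ F := by
        have e : d ^ (Fintype.card k - 2) = d⁻¹ := by
          refine eq_inv_of_mul_eq_one_left ?_
          rw [← pow_succ, show Fintype.card k - 2 + 1 = Fintype.card k - 1 by
            have := Fintype.one_lt_card (α := k); omega]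
          exact FiniteField.pow_card_sub_one_eq_one d hne
        rw [← e]
        exact pow_mem (sub_mem b.2 b'.2) _
      refine hno (d⁻¹ * ((a' : k) - a)) (mul_mem hinv (sub_mem a'.2 a.2)) ?_
      rw [mul_assoc, eq_inv_mul_iff_mul_eq₀ hne]
      simp only [d]
      linear_combination h'
  have h := Nat.card_le_card_of_injective f hf
  rw [Nat.card_prod] at h
  have h2 : 2 ≤ Nat.card ↥F := Finite.one_lt_card
  nlinarith

include hp in
theorem natCard_sub_one_cast : ((Nat.card k - 1 : ℕ) : k) = -1 := by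
  letI := Fintype.ofFinite k
  rw [Nat.card_eq_fintype_card, Nat.cast_sub Fintype.card_pos, FiniteField.cast_card_eq_zero]
  simp

include hp in
/-- The squares of the diagonal entries commute with the top entry. -/
theorem torus_mult {G : Subgroup GL2} (e : ℕ) (c₁ : GL2 → M2)
    (hc₁ : ∀ g ∈ G, ∀ h ∈ G, c₁ (g * h) = c₁ g + adj e g (c₁ h))
    (htr₁ : ∀ g ∈ G, Matrix.trace (c₁ g) = 0)
    (hshape : ∀ x ∈ addA G, c₁ (up x) 1 0 = 0 ∧ c₁ (up x) 0 0 = 0 ∧ c₁ (up x) 1 1 = 0)
    {x₀ : k} (hx₀ : x₀ ∈ addA G) (hx0 : x₀ ≠ 0) :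
    ∀ u : ↥(torus G), ∀ x ∈ addA G, ((u.1 : kˣ) : k) * x ∈ addA G ∧
      c₁ (up (((u.1 : kˣ) : k) * x)) 0 1 = ((u.1 : kˣ) : k) * c₁ (up x) 0 1 := by
  have h2 : (2 : k) ≠ 0 := two_ne p hp
  let E : k → k := fun x => c₁ (up x) 0 1
  rintro ⟨u, g, rfl⟩ x hx
  obtain ⟨⟨g, hgG, h10, hdet⟩, rfl⟩ : ∃ g' : ↥(borelOne G), g' = g := ⟨g, rfl⟩
  show ((g : M2) 0 0) ^ 2 * x ∈ addA G ∧ E (((g : M2) 0 0) ^ 2 * x) = ((g : M2) 0 0) ^ 2 * E x
  have hd := upper_diag h10 hdet
  have hl : (g : M2) 0 0 / (g : M2) 1 1 = ((g : M2) 0 0) ^ 2 := by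
    rw [div_eq_iff (fun h => by simp [h] at hd)]
    linear_combination -((g : M2) 0 0) * hd
  set l := ((g : M2) 0 0) ^ 2
  have hl0 : l ≠ 0 := pow_ne_zero 2 (fun h => by simp [h] at hd)
  have e1 : ∀ y, g * up y = up (l * y) * g := fun y => by
    ext i j
    fin_cases i <;> fin_cases j <;> simp [Matrix.mul_apply, Fin.sum_univ_two, h10, l]
    linear_combination -((g : M2) 0 0 * y) * hd
  have hmem : ∀ y ∈ addA G, l * y ∈ addA G := fun y hy => by
    show up (l * y) ∈ G
    rw [eq_mul_inv_of_mul_eq (e1 y).symm]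
    exact mul_mem (mul_mem hgG hy) (inv_mem hgG)
  have rel : ∀ y ∈ addA G, c₁ g + adj e g (c₁ (up y)) =
      c₁ (up (l * y)) + adj e (up (l * y)) (c₁ g) := fun y hy => by
    rw [← hc₁ _ hgG _ hy, e1, hc₁ _ (hmem y hy) _ hgG]
  have hg10 : c₁ g 1 0 = 0 := by
    have e1 := congrFun (congrFun (rel x₀ hx₀) 0) 0
    have e2 := (adj_upper_entries e h10 (c₁ (up x₀))).2.1
    obtain ⟨a, b, -⟩ := hshape x₀ hx₀
    obtain ⟨-, b', -⟩ := hshape _ (hmem x₀ hx₀)
    rw [hdet, one_mul, a, b] at e2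
    simp [adj_up, b', e2] at e1
    exact e1.resolve_left (not_or.2 ⟨hl0, hx0⟩)
  have step : ∀ y ∈ addA G, E (l * y) = l * E y + 2 * c₁ g 0 0 * (l * y) := fun y hy => by
    have e1 := congrFun (congrFun (rel y hy) 0) 1
    have e2 := (adj_upper_entries e h10 (c₁ (up y))).2.2
    obtain ⟨a, b, d⟩ := hshape y hy
    have t1 := htr₁ g hgG
    rw [Matrix.trace_fin_two] at t1
    rw [hdet, one_pow, one_mul, one_mul, a, b, d] at e2
    simp [adj_up, hg10, e2] at e1
    simp only [E, l] at e1 ⊢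
    linear_combination -e1 - (((g : M2) 0 0) ^ 2 * y) * t1
  have iter : ∀ (i : ℕ), ∀ y ∈ addA G, l ^ i * y ∈ addA G ∧
      E (l ^ i * y) = l ^ i * (E y + i * (2 * c₁ g 0 0) * y) := by
    intro i
    induction i with
    | zero => intro y hy; simp [hy]
    | succ i ih =>
      intro y hy
      obtain ⟨h1, h2'⟩ := ih y hy
      rw [pow_succ', mul_assoc]
      refine ⟨hmem _ h1, ?_⟩
      rw [step _ h1, h2']
      push_cast
      ring
  have heta : c₁ g 0 0 = 0 := by
    obtain ⟨-, h'⟩ := iter (Nat.card k - 1) x₀ hx₀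
    letI := Fintype.ofFinite k
    rw [show l ^ (Nat.card k - 1) = 1 by
      rw [Nat.card_eq_fintype_card]; exact FiniteField.pow_card_sub_one_eq_one l hl0,
      natCard_sub_one_cast p hp, one_mul, one_mul] at h'
    have : (2 * x₀) * c₁ g 0 0 = 0 := by linear_combination h'
    exact (mul_eq_zero.1 this).resolve_left (mul_ne_zero h2 hx0)
  exact ⟨hmem x hx, by rw [step x hx, heta, mul_zero, zero_mul, add_zero]⟩

include hp in
/-- The standard position. -/
theorem cocycle_eq_bdy_std {G : Subgroup GL2} (hG : Big G)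
    (hU : ¬ p ∣ (G ⊓ upperGrp k).relIndex G) (e : ℕ) (c : GL2 → M2)
    (htr : ∀ g ∈ G, Matrix.trace (c g) = 0)
    (hc : ∀ g ∈ G, ∀ h ∈ G, c (g * h) = c g + adj e g (c h))
    (hyp : (e = 1 ∧ ∀ a : ZMod p, a ≠ 0 →
        ∃ g ∈ G, Matrix.det (g : M2) = ZMod.castHom (dvd_refl p) k a) ∨
      ∀ g ∈ G, ∃ m, c g = adj e g m - m) :
    ∃ m ∈ tz, ∀ g ∈ G, c g = adj e g m - m := by
  have h2 : (2 : k) ≠ 0 := two_ne p hp
  -- reduce to vanishing on the unitriangular elements
  suffices hred : ∃ m ∈ tz, ∀ x ∈ addA G, c (up x) = adj e (up x) m - m by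
    obtain ⟨m, hm, hmx⟩ := hred
    have hidx : ((((G ⊓ upperGrp k).subgroupOf G).index : ℕ) : k) ≠ 0 := fun h =>
      hU ((CharP.cast_eq_zero_iff k p _).1 h)
    obtain ⟨n, hn, hng⟩ := Lowering.P1.Primes.exists_bdy_of_vanishes (fun g : ↥G => adj e g.1)
      (fun g : ↥G => c g.1 - (adj e g.1 m - m)) (fun g h => by
        simp only [Subgroup.coe_mul, hc _ g.2 _ h.2, adj_mul, map_sub]
        abel)
      ((G ⊓ upperGrp k).subgroupOf G) (fun w hw => by
        obtain ⟨x, hx⟩ := mem_upperGrp.1 (Subgroup.mem_subgroupOf.1 hw).2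
        rw [← hx, hmx x (by rw [mem_addA, hx]; exact w.2), sub_self])
      hidx tz (fun g => mem_tz.2 (by
        rw [Matrix.trace_sub, Matrix.trace_sub, htr _ g.2, trace_adj e _ (mem_tz.1 hm),
          mem_tz.1 hm, sub_zero, sub_zero]))
    refine ⟨m + n, add_mem hm hn, fun g hg => ?_⟩
    have e1 := hng ⟨g, hg⟩
    simp only at e1
    rw [map_add, ← sub_add_cancel (c g) (adj e g m - m), e1]
    abel
  have hc1 : c 1 = 0 := by
    have h := hc 1 (one_mem G) 1 (one_mem G)
    rw [mul_one, adj_one, left_eq_add] at h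
    exact h
  by_cases hA : ∃ x ∈ addA G, x ≠ 0
  swap
  · push Not at hA
    exact ⟨0, zero_mem _, fun x hx => by rw [hA x hx, up_zero, hc1]; simp⟩
  obtain ⟨x₀, hx₀, hx0⟩ := hA
  have hcount := card_addA_le p hp hG hU ⟨x₀, hx₀, hx0⟩
  have comm : ∀ x ∈ addA G, ∀ y ∈ addA G, c (up (x + y)) = c (up x) + adj e (up x) (c (up y)) :=
    fun x hx y hy => by rw [up_add, hc _ hx _ hy]
  have upper : ∀ g ∈ G, (g : M2) 1 0 = 0 → ∀ x ∈ addA G,
      (g : M2) 0 0 / (g : M2) 1 1 * x ∈ addA G ∧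
      c g + adj e g (c (up x)) = c (up ((g : M2) 0 0 / (g : M2) 1 1 * x)) +
        adj e (up ((g : M2) 0 0 / (g : M2) 1 1 * x)) (c g) := by
    intro g hg h10 x hx
    have hd : (g : M2) 1 1 ≠ 0 := fun h => det_val_ne g (by simp [Matrix.det_fin_two, h, h10])
    set l := (g : M2) 0 0 / (g : M2) 1 1
    have e1 : g * up x = up (l * x) * g := by
      ext i j
      fin_cases i <;> fin_cases j <;> simp [Matrix.mul_apply, Fin.sum_univ_two, h10, l]
      field_simp
      ring
    have hmem : up (l * x) ∈ G := by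
      rw [eq_mul_inv_of_mul_eq e1.symm]
      exact mul_mem (mul_mem hg hx) (inv_mem hg)
    exact ⟨hmem, by rw [← hc _ hg _ hx, e1, hc _ hmem _ hg]⟩
  -- the lower left entry
  obtain ⟨s, hs⟩ : ∃ s, ∀ x ∈ addA G, c (up x) 1 0 = s * x := by
    refine ⟨c (up x₀) 1 0 / x₀, fun x hx => ?_⟩
    have a1 := comm x hx x₀ hx₀
    rw [add_comm x x₀, comm x₀ hx₀ x hx] at a1
    have a2 := congrFun (congrFun a1 0) 0
    simp [adj_up] at a2
    field_simp
    linear_combination a2
  have hs0 : s = 0 := by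
    rcases hyp with ⟨rfl, hdet⟩ | hcyc
    swap
    · obtain ⟨m, hm⟩ := hcyc (up x₀) hx₀
      have := hs x₀ hx₀
      rw [hm] at this
      simp [adj_up] at this
      exact this.resolve_right hx0
    -- a triangular element not fixing the top weight
    obtain ⟨g, hg, h10, hne⟩ : ∃ g ∈ G, (g : M2) 1 0 = 0 ∧
        ((g : M2) 0 0 / (g : M2) 1 1) ^ 2 ≠ Matrix.det (g : M2) := by
      by_contra hcon
      push Not at hcon
      letI := Fintype.ofFinite k
      have hT : Nat.card ↥(torus G) ≤ 2 := by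
        classical
        haveI : Fintype ↥(torus G) := Fintype.ofFinite _
        rw [Nat.card_eq_fintype_card]
        refine (Fintype.card_le_of_injective
          (β := ↥({1, -1} : Finset k)) (fun u => ⟨((u.1 : kˣ) : k), ?_⟩) ?_).trans
          ((Fintype.card_coe _).trans_le Finset.card_le_two)
        · obtain ⟨g, hg⟩ := u.2
          have hd := upper_diag g.2.2.1 g.2.2.2
          have := hcon g.1 g.2.1 g.2.2.1
          have e1 : ((u.1 : kˣ) : k) = ((g.1 : M2) 0 0) ^ 2 := by rw [← hg]; rfl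
          have e2 : ((g.1 : M2) 0 0 / (g.1 : M2) 1 1) = ((g.1 : M2) 0 0) ^ 2 := by
            rw [div_eq_iff (fun h => by simp [h] at hd)]
            linear_combination -((g.1 : M2) 0 0) * hd
          rw [e2, g.2.2.2, ← e1] at this
          simpa [Finset.mem_insert, Finset.mem_singleton] using sq_eq_one_iff.1 this
        · intro u v h
          exact Subtype.ext (Units.ext (congrArg Subtype.val h))
      have hq : Nat.card ↥(addA G) = p := by
        have hdvd : Nat.card ↥(addA G) ∣ Nat.card k := AddSubgroup.card_addSubgroup_dvd_card _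
        obtain ⟨r, -, hr⟩ : ∃ r : ℕ+, Nat.Prime p ∧ Fintype.card k = p ^ (r : ℕ) :=
          FiniteField.card k p
        rw [Nat.card_eq_fintype_card (α := k), hr] at hdvd
        obtain ⟨m, -, hm⟩ := (Nat.dvd_prime_pow Fact.out).1 hdvd
        have h3 : 3 ≤ p := (Fact.out : p.Prime).two_le.lt_of_ne (Ne.symm hp)
        match m, hm with
        | 0, hm =>
          haveI : Subsingleton ↥(addA G) :=
            (Nat.card_eq_one_iff_unique.1 (by simpa using hm)).1
          exact absurd (congrArg Subtype.val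
            (Subsingleton.elim (⟨x₀, hx₀⟩ : ↥(addA G)) ⟨0, zero_mem _⟩)) hx0
        | 1, hm => simpa using hm
        | m + 2, hm =>
          have : p ^ 2 ≤ p ^ (m + 2) := Nat.pow_le_pow_right (by omega) (by omega)
          rw [hm] at hcount
          nlinarith
      obtain ⟨d₀, hd₀⟩ := FiniteField.exists_nonsquare
        (F := ZMod p) (by rwa [ZMod.ringChar_zmod_n])
      obtain ⟨g₀, hg₀, hg₀d⟩ := hdet d₀ (fun h => hd₀ (h ▸ IsSquare.zero))
      obtain ⟨g, hg, h10, hgd⟩ := exists_upper_det p hp hG hU hx₀ hx0 hg₀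
      obtain ⟨hmem, -⟩ := upper g hg h10 x₀ hx₀
      have hord : addOrderOf (⟨x₀, hx₀⟩ : ↥(addA G)) = p :=
        addOrderOf_eq_prime (Subtype.ext (by
          show (p : ℕ) • x₀ = 0
          rw [nsmul_eq_mul, CharP.cast_eq_zero, zero_mul]))
          fun h => hx0 (congrArg Subtype.val h)
      have htop : AddSubgroup.zmultiples (⟨x₀, hx₀⟩ : ↥(addA G)) = ⊤ :=
        AddSubgroup.eq_top_of_card_eq _ (by rw [Nat.card_zmultiples, hord, hq])
      obtain ⟨n, hn⟩ := AddSubgroup.mem_zmultiples_iff.1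
        (show (⟨_, hmem⟩ : ↥(addA G)) ∈ AddSubgroup.zmultiples (⟨x₀, hx₀⟩ : ↥(addA G)) from
          htop ▸ AddSubgroup.mem_top _)
      have hn' : (n : ℤ) • x₀ = (g : M2) 0 0 / (g : M2) 1 1 * x₀ := congrArg Subtype.val hn
      rw [zsmul_eq_mul] at hn'
      have hl := mul_right_cancel₀ hx0 hn'
      have := hcon g hg h10
      rw [← hl, hgd, hg₀d] at this
      refine hd₀ ⟨(n : ZMod p), (ZMod.castHom (dvd_refl p) k).injective ?_⟩
      rw [map_mul, map_intCast, ← sq]
      exact this.symm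
    obtain ⟨hmem, hrel⟩ := upper g hg h10 x₀ hx₀
    have hd : (g : M2) 1 1 ≠ 0 := fun h => det_val_ne g (by simp [Matrix.det_fin_two, h, h10])
    have e1 := (adj_upper_entries 1 h10 (c (up x₀))).1
    have e2 := congrFun (congrFun hrel 1) 0
    rw [Matrix.add_apply, Matrix.add_apply, hs _ hmem, adj_up] at e2
    simp only [Matrix.of_apply, Matrix.cons_val', Matrix.cons_val_zero, Matrix.cons_val_one,
      Matrix.empty_val', Matrix.cons_val_fin_one] at e2
    rw [pow_one, hs _ hx₀] at e1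
    have e1' : adj 1 g (c (up x₀)) 1 0 = (g : M2) 1 1 ^ 2 * (s * x₀) :=
      mul_left_cancel₀ (det_val_ne g) e1
    rw [e1'] at e2
    by_contra hs0
    refine hne ?_
    have e3 : (g : M2) 1 1 ^ 2 = (g : M2) 0 0 / (g : M2) 1 1 :=
      mul_right_cancel₀ (mul_ne_zero hs0 hx0) (by linear_combination e2)
    rw [eq_div_iff hd] at e3
    rw [div_pow, div_eq_iff (pow_ne_zero 2 hd), Matrix.det_fin_two, h10, mul_zero, sub_zero]
    linear_combination -((g : M2) 0 0) * e3
  subst hs0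
  have hφ : ∀ x ∈ addA G, c (up x) 1 0 = 0 := fun x hx => by rw [hs x hx, zero_mul]
  -- the diagonal
  obtain ⟨t, ht⟩ : ∃ t, ∀ x ∈ addA G, c (up x) 0 0 = t * x := by
    refine ⟨c (up x₀) 0 0 / x₀, fun x hx => ?_⟩
    have a1 := comm x hx x₀ hx₀
    rw [add_comm x x₀, comm x₀ hx₀ x hx] at a1
    have a2 := congrFun (congrFun a1 0) 1
    have t0 := htr _ hx₀
    have t1 := htr _ hx
    rw [Matrix.trace_fin_two] at t0 t1
    simp [adj_up, hφ x hx, hφ x₀ hx₀] at a2
    field_simp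
    refine mul_left_cancel₀ h2 ?_
    first
      | linear_combination x * t0 - x₀ * t1 + a2
      | linear_combination -(x * t0) + x₀ * t1 - a2
      | linear_combination x * t0 - x₀ * t1 - a2
      | linear_combination -(x * t0) + x₀ * t1 + a2
  set m₁ : M2 := !![0, 0; t, 0]
  have hm₁ : m₁ ∈ tz := mem_tz.2 (by simp [m₁, Matrix.trace_fin_two])
  set c₁ : GL2 → M2 := fun g => c g - (adj e g m₁ - m₁) with hc₁def
  have hc₁ : ∀ g ∈ G, ∀ h ∈ G, c₁ (g * h) = c₁ g + adj e g (c₁ h) := fun g hg h hh => by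
    simp only [c₁, hc g hg h hh, adj_mul, map_sub]
    abel
  have htr₁ : ∀ g ∈ G, Matrix.trace (c₁ g) = 0 := fun g hg => by
    simp only [c₁]
    rw [Matrix.trace_sub, Matrix.trace_sub, htr g hg, trace_adj e g (mem_tz.1 hm₁),
      mem_tz.1 hm₁, sub_zero, sub_zero]
  have hshape : ∀ x ∈ addA G, c₁ (up x) 1 0 = 0 ∧ c₁ (up x) 0 0 = 0 ∧ c₁ (up x) 1 1 = 0 := by
    intro x hx
    have t1 := htr₁ _ hx
    rw [Matrix.trace_fin_two] at t1
    have a : c₁ (up x) 0 0 = 0 := by simp [c₁, adj_up, m₁, ht x hx]; ring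
    refine ⟨by simp [c₁, adj_up, m₁, hφ x hx], a, ?_⟩
    rw [a, zero_add] at t1
    exact t1
  set E : k → k := fun x => c₁ (up x) 0 1
  have hE : ∀ x ∈ addA G, ∀ y ∈ addA G, E (x + y) = E x + E y := fun x hx y hy => by
    obtain ⟨a, b, d⟩ := hshape y hy
    simp only [E, up_add, hc₁ _ hx _ hy, Matrix.add_apply, adj_up]
    simp [a, b, d]
  have hmult := torus_mult p hp e c₁ hc₁ htr₁ hshape hx₀ hx0
  set F := multipliers (addA G) E hE
  have hFcard : Nat.card ↥(torus G) + 1 ≤ Nat.card ↥F := by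
    let f : Option ↥(torus G) → ↥F := fun o => o.elim 0 fun u => ⟨((u.1 : kˣ) : k), hmult u⟩
    have hf : Function.Injective f := by
      rintro (_ | a) (_ | b) h
      · rfl
      · exact absurd (congrArg Subtype.val h).symm (Units.ne_zero _)
      · exact absurd (congrArg Subtype.val h) (Units.ne_zero _)
      · exact congrArg some (Subtype.ext (Units.ext (by
          have := congrArg Subtype.val h
          exact this)))
    have := Nat.card_le_card_of_injective f hf
    rwa [Finite.card_option] at this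
  have hlin : ∀ x ∈ addA G, E x = E x₀ / x₀ * x := fun x hx => by
    obtain ⟨μ, hμ, rfl⟩ := line_of_multipliers F (fun μ hμ y hy => (hμ y hy).1) (by omega)
      hx₀ hx0 hx
    rw [(hμ x₀ hx₀).2]
    field_simp
  set ξ := E x₀ / x₀
  refine ⟨m₁ + !![-(ξ / 2), 0; 0, ξ / 2], add_mem hm₁ (mem_tz.2 (by simp [Matrix.trace_fin_two])),
    fun x hx => ?_⟩
  rw [map_add, ← sub_add_cancel (c (up x)) (adj e (up x) m₁ - m₁)]
  have key : c₁ (up x) = adj e (up x) !![-(ξ / 2), 0; 0, ξ / 2] - !![-(ξ / 2), 0; 0, ξ / 2] := by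
    obtain ⟨a, b, d⟩ := hshape x hx
    have e01 : c₁ (up x) 0 1 = ξ * x := hlin x hx
    ext i j
    fin_cases i <;> fin_cases j <;> simp [adj_up, a, b, d, e01]
    field_simp
    ring
  rw [show c (up x) - (adj e (up x) m₁ - m₁) = c₁ (up x) from rfl, key]
  abel

include hp in
/-- The vanishing. -/
theorem cocycle_eq_bdy {G : Subgroup GL2} (hG : Big G) (e : ℕ) (c : GL2 → M2)
    (htr : ∀ g ∈ G, Matrix.trace (c g) = 0)
    (hc : ∀ g ∈ G, ∀ h ∈ G, c (g * h) = c g + adj e g (c h))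
    (hyp : (e = 1 ∧ ∀ a : ZMod p, a ≠ 0 →
        ∃ g ∈ G, Matrix.det (g : M2) = ZMod.castHom (dvd_refl p) k a) ∨
      ∀ g ∈ G, ∃ m, c g = adj e g m - m) :
    ∃ m ∈ tz, ∀ g ∈ G, c g = adj e g m - m := by
  haveI : Finite GL2 := inferInstanceAs (Finite (M2)ˣ)
  obtain ⟨P⟩ : Nonempty (Sylow p ↥G) := inferInstance
  have hidx : ¬ p ∣ (P : Subgroup ↥G).index := P.not_dvd_index
  set P' : Subgroup GL2 := (P : Subgroup ↥G).map G.subtype
  have hP' : IsPGroup p ↥P' := P.2.map _
  -- a fixed vector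
  obtain ⟨v, hv, hfix⟩ : ∃ v : Fin 2 → k, v ≠ 0 ∧ ∀ g ∈ P', (g : M2).mulVec v = v := by
    letI := Fintype.ofFinite k
    obtain ⟨r, -, hr⟩ : ∃ r : ℕ+, Nat.Prime p ∧ Fintype.card k = p ^ (r : ℕ) :=
      FiniteField.card k p
    have hcard : p ∣ Nat.card (Fin 2 → k) := by
      rw [Nat.card_eq_fintype_card, Fintype.card_fun, Fintype.card_fin, hr]
      exact dvd_pow (dvd_pow_self p r.ne_zero) two_ne_zero
    obtain ⟨v, hv, hv0⟩ := hP'.exists_fixed_point_of_prime_dvd_card_of_fixed_point (Fin 2 → k)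
      hcard (a := 0) (fun g => smul_zero g)
    exact ⟨v, fun h => hv0 h.symm, fun g hg => hv ⟨g, hg⟩⟩
  obtain ⟨w, hw⟩ : ∃ w : Fin 2 → k, v 0 * w 1 - w 0 * v 1 ≠ 0 := by
    by_cases h0 : v 0 = 0
    · exact ⟨![1, 0], by simpa [h0] using fun h1 : v 1 = 0 => hv (funext fun i => by
        fin_cases i <;> simp [h0, h1])⟩
    · exact ⟨![0, 1], by simpa using h0⟩
  let Q : GL2 := Matrix.GeneralLinearGroup.mkOfDetNeZero !![v 0, w 0; v 1, w 1]
    (by simpa [Matrix.det_fin_two] using hw)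
  have hQ : ∀ i, (Q : M2) i 0 = v i := fun i => by fin_cases i <;> simp [Q]
  set φ : GL2 →* GL2 := (MulAut.conj Q⁻¹).toMonoidHom
  have hφ : ∀ g, φ g = Q⁻¹ * g * Q := fun g => by simp [φ]
  have hφv : ∀ g, (φ g : M2) = (Q⁻¹ : GL2) * (g : M2) * Q := fun g => by
    rw [hφ, Units.val_mul, Units.val_mul]
  have hφs : ∀ g, φ (Q * g * Q⁻¹) = g := fun g => by rw [hφ]; group
  set G' := G.map φ
  have hmem : ∀ g, g ∈ G' ↔ Q * g * Q⁻¹ ∈ G := fun g => by
    constructor
    · rintro ⟨h, hh, rfl⟩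
      rw [hφ, show Q * (Q⁻¹ * h * Q) * Q⁻¹ = h by group]
      exact hh
    · exact fun h => ⟨_, h, hφs g⟩
  have hφinj : Function.Injective φ := (MulAut.conj Q⁻¹).injective
  have hnl : ∀ H : Subgroup GL2, NoLine H → NoLine (H.map φ) := fun H hH u hu => by
    obtain ⟨g, hg, hgu⟩ := hH ((Q : M2).mulVec u) fun h => hu (by
      have h' := congrArg ((Q⁻¹ : GL2) : M2).mulVec h
      rwa [Matrix.mulVec_mulVec, ← Units.val_mul, inv_mul_cancel, Units.val_one, Matrix.one_mulVec,
        Matrix.mulVec_zero] at h')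
    refine ⟨φ g, Subgroup.mem_map_of_mem _ hg, fun a ha => hgu a ?_⟩
    have h' := congrArg (Q : M2).mulVec ha
    rwa [hφv, Matrix.mulVec_smul, Matrix.mulVec_mulVec, ← mul_assoc, ← mul_assoc, ← Units.val_mul,
      mul_inv_cancel, Units.val_one, one_mul, ← Matrix.mulVec_mulVec] at h'
  have hG' : Big G' := by
    refine ⟨hnl G hG.noLine, fun H hH hidx => ?_, ?_⟩
    · have hH' : (H.comap φ).map φ = H :=
        Subgroup.map_comap_eq_self_of_surjective (MulAut.conj Q⁻¹).surjective H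
      rw [← hH'] at hidx ⊢
      rw [Subgroup.relIndex_map_map_of_injective _ _ hφinj] at hidx
      refine hnl _ (hG.index_two _ (fun g hg => ?_) hidx)
      obtain ⟨h, hh, e⟩ := hH hg
      exact hφinj e ▸ hh
    · rintro _ ⟨g, hg, rfl⟩
      obtain ⟨a, ha⟩ := hG.split g hg
      exact ⟨a, by rwa [hφv, Matrix.trace_units_conj', Matrix.det_units_conj']⟩
  have hU' : ¬ p ∣ (G' ⊓ upperGrp k).relIndex G' := by
    intro hdvd
    have hsub : P'.map φ ≤ G' ⊓ upperGrp k := by
      rintro _ ⟨g, hg, rfl⟩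
      refine ⟨Subgroup.mem_map_of_mem _ ((Subgroup.map_subtype_le _) hg), mem_upperGrp.2 ?_⟩
      have hdet : Matrix.det (g : M2) = 1 := by
        obtain ⟨n, hn⟩ := hP' ⟨g, hg⟩
        have hn' := congrArg (fun x : GL2 => Matrix.det (x : M2)) (congrArg Subtype.val hn)
        simp only [Subgroup.coe_pow, Units.val_pow_eq_pow_val, Matrix.det_pow, Subgroup.coe_one,
          Units.val_one, Matrix.det_one] at hn'
        have h0 : (Matrix.det (g : M2) - 1) ^ p ^ n = 0 := by
          rw [sub_pow_char_pow, hn', one_pow, sub_self]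
        exact sub_eq_zero.1 ((pow_eq_zero_iff (pow_ne_zero _ (Fact.out : p.Prime).ne_zero)).1 h0)
      have hcol : ∀ i, (φ g : M2) i 0 = (1 : M2) i 0 := fun i => by
        have e : (g : M2) * (Q : M2) * !![1, 0; 0, 0] = (Q : M2) * !![1, 0; 0, 0] := by
          have hgv := hfix g hg
          ext a b
          have := congrFun hgv a
          rw [mulVec_apply_two] at this
          fin_cases b <;> simp [Matrix.mul_apply, Fin.sum_univ_two, hQ]
          exact this
        have e' := congrArg (fun X : M2 => ((Q⁻¹ : GL2) : M2) * X) e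
        simp only [← mul_assoc] at e'
        rw [← hφv, ← Units.val_mul, inv_mul_cancel, Units.val_one, one_mul] at e'
        have := congrFun (congrFun e' i) 0
        fin_cases i <;> simpa [Matrix.mul_apply, Fin.sum_univ_two, Matrix.one_apply] using this
      refine ⟨(φ g : M2) 0 1, Units.ext ?_⟩
      have d : Matrix.det (φ g : M2) = 1 := by rw [hφv, Matrix.det_units_conj', hdet]
      rw [Matrix.det_fin_two, hcol 0, hcol 1] at d
      simp at d
      ext i j
      fin_cases i <;> fin_cases j <;> simp [hcol, d]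
    have h := hdvd.trans (Subgroup.relIndex_dvd_of_le_left G' hsub)
    rw [Subgroup.relIndex_map_map_of_injective _ _ hφinj] at h
    refine hidx (h.trans (dvd_of_eq ?_))
    rw [Subgroup.relIndex, Subgroup.subgroupOf,
      Subgroup.comap_map_eq_self_of_injective G.subtype_injective]
  set c' : GL2 → M2 := fun g => ((Q⁻¹ : GL2) : M2) * c (Q * g * Q⁻¹) * (Q : M2)
  have hadj : ∀ g X, adj e g (((Q⁻¹ : GL2) : M2) * X * (Q : M2)) =
      ((Q⁻¹ : GL2) : M2) * adj e (Q * g * Q⁻¹) X * (Q : M2) := fun g X => by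
    have hd : Matrix.det ((Q * g * Q⁻¹ : GL2) : M2) = Matrix.det (g : M2) := by
      rw [Units.val_mul, Units.val_mul, Matrix.det_units_conj]
    rw [adj_apply, adj_apply, hd, mul_smul_comm, smul_mul_assoc]
    congr 1
    simp only [Units.val_mul, mul_inv_rev, inv_inv, ← mul_assoc, Units.inv_mul, one_mul]
    simp only [mul_assoc, Units.inv_mul, mul_one]
  obtain ⟨m, hm, hm'⟩ := cocycle_eq_bdy_std p hp hG' hU' e c' (fun g hg => by
      show Matrix.trace (((Q⁻¹ : GL2) : M2) * c (Q * g * Q⁻¹) * (Q : M2)) = 0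
      rw [Matrix.trace_units_conj']
      exact htr _ ((hmem g).1 hg))
    (fun g hg h hh => by
      simp only [c']
      rw [show Q * (g * h) * Q⁻¹ = (Q * g * Q⁻¹) * (Q * h * Q⁻¹) by group,
        hc _ ((hmem g).1 hg) _ ((hmem h).1 hh), mul_add, add_mul, hadj])
    (hyp.imp (fun ⟨he, hd⟩ => ⟨he, fun a ha => by
      obtain ⟨g, hg, hgd⟩ := hd a ha
      exact ⟨φ g, Subgroup.mem_map_of_mem _ hg, by rw [hφv, Matrix.det_units_conj', hgd]⟩⟩)
      fun hcyc g hg => by
        obtain ⟨m, hm⟩ := hcyc _ ((hmem g).1 hg)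
        exact ⟨((Q⁻¹ : GL2) : M2) * m * (Q : M2), by
          simp only [c', hm, hadj, mul_sub, sub_mul]⟩)
  refine ⟨(Q : M2) * m * ((Q⁻¹ : GL2) : M2), mem_tz.2 (by
    rw [Matrix.trace_units_conj]; exact hm), fun g hg => ?_⟩
  have h := hm' (φ g) (Subgroup.mem_map_of_mem _ hg)
  have hg' : Q * φ g * Q⁻¹ = g := by rw [hφ]; group
  simp only [c', hg'] at h
  have hA := hadj (φ g) ((Q : M2) * m * ((Q⁻¹ : GL2) : M2))
  rw [hg', show ((Q⁻¹ : GL2) : M2) * ((Q : M2) * m * ((Q⁻¹ : GL2) : M2)) * (Q : M2) = m by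
    simp only [← mul_assoc, Units.inv_mul, one_mul]
    simp only [mul_assoc, Units.inv_mul, mul_one]] at hA
  rw [hA] at h
  have h' := congrArg (fun X : M2 => (Q : M2) * X * ((Q⁻¹ : GL2) : M2)) h
  simp only [mul_sub, sub_mul, ← mul_assoc, Units.mul_inv, one_mul] at h'
  simp only [mul_assoc, Units.mul_inv, mul_one] at h'
  simpa only [mul_assoc] using h'

end FLTAgent.TWPrimes.Image
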