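import Fermat.Agent.TWPrimes.Image.Basic

/-!
# Counting fixed points on the projective line

If the unitriangular matrices of a subgroup are a Sylow subgroup with parameters forming the group
`A`, then the squares of the diagonal entries form a group of order at least `(#A - 1) / 2`.
-/

set_option autoImplicit false
set_option linter.unusedSectionVars false

noncomputable section

open scoped LinearAlgebra.Projectivization Classical

namespace FLTAgent.TWPrimes.Image

variable {k : Type} [Field k]

local notation "M2" => Matrix (Fin 2) (Fin 2) k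
local notation "GL2" => GL (Fin 2) k
local notation "Pt" => ℙ k (Fin 2 → k)

/-- The upper unitriangular matrix. -/
def up (x : k) : GL2 where
  val := !![1, x; 0, 1]
  inv := !![1, -x; 0, 1]
  val_inv := by ext i j; fin_cases i <;> fin_cases j <;> simp [Matrix.mul_apply, Fin.sum_univ_two]
  inv_val := by ext i j; fin_cases i <;> fin_cases j <;> simp [Matrix.mul_apply, Fin.sum_univ_two]

@[simp] theorem up_val (x : k) : (up x : M2) = !![1, x; 0, 1] := rfl

theorem up_add (x y : k) : up (x + y) = up x * up y := by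
  ext i j; fin_cases i <;> fin_cases j <;> simp [Matrix.mul_apply, Fin.sum_univ_two, add_comm]

theorem up_zero : up (0 : k) = 1 := by
  ext i j; fin_cases i <;> fin_cases j <;> simp

theorem up_injective : Function.Injective (up : k → GL2) := fun a b h => by
  simpa using congrArg (fun g : GL2 => (g : M2) 0 1) h

/-- The unitriangular matrices. -/
def upperGrp (k : Type) [Field k] : Subgroup (GL (Fin 2) k) :=
  (MonoidHom.mk' (fun x : Multiplicative k => up x.toAdd) fun _ _ => up_add _ _).range

theorem mem_upperGrp {g : GL2} : g ∈ upperGrp k ↔ ∃ x, up x = g := by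
  rw [upperGrp, MonoidHom.mem_range]
  exact ⟨fun ⟨x, h⟩ => ⟨x.toAdd, h⟩, fun ⟨x, h⟩ => ⟨Multiplicative.ofAdd x, h⟩⟩

/-- The parameters of the unitriangular elements. -/
def addA (G : Subgroup GL2) : AddSubgroup k where
  carrier := {x | up x ∈ G}
  zero_mem' := by simp [up_zero, one_mem]
  add_mem' := fun {a b} ha hb => by
    show up (a + b) ∈ G
    rw [up_add]; exact mul_mem ha hb
  neg_mem' := fun {a} ha => by
    show up (-a) ∈ G
    rw [show up (-a) = (up a)⁻¹ from eq_inv_of_mul_eq_one_left (by rw [← up_add, neg_add_cancel, up_zero])]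
    exact inv_mem ha

theorem mem_addA {G : Subgroup GL2} {x : k} : x ∈ addA G ↔ up x ∈ G := Iff.rfl

theorem val_inv_eq (g : GL2) : (Matrix.det (g : M2)) • ((g⁻¹ : GL2) : M2) =
    !![(g : M2) 1 1, -(g : M2) 0 1; -(g : M2) 1 0, (g : M2) 0 0] := by
  rw [Matrix.coe_units_inv, Matrix.inv_def, Ring.inverse_eq_inv', smul_smul,
    mul_inv_cancel₀ (det_val_ne g), one_smul, Matrix.adjugate_fin_two]

/-- The triangular elements of determinant one. -/
def borelOne (G : Subgroup GL2) : Subgroup GL2 where
  carrier := {g | g ∈ G ∧ (g : M2) 1 0 = 0 ∧ Matrix.det (g : M2) = 1}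
  one_mem' := ⟨one_mem G, by simp, by simp⟩
  mul_mem' := fun {a b} ha hb => ⟨mul_mem ha.1 hb.1, by
    rw [Units.val_mul, Matrix.mul_apply, Fin.sum_univ_two, ha.2.1, hb.2.1, zero_mul, mul_zero,
      add_zero], by rw [Units.val_mul, Matrix.det_mul, ha.2.2, hb.2.2, one_mul]⟩
  inv_mem' := fun {a} ha => by
    have h := val_inv_eq a
    rw [ha.2.2, one_smul] at h
    refine ⟨inv_mem ha.1, ?_, ?_⟩
    · rw [h]; simp [ha.2.1]
    · rw [h, Matrix.det_fin_two]
      simp only [Matrix.of_apply, Matrix.cons_val', Matrix.cons_val_zero, Matrix.cons_val_one,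
        Matrix.empty_val', Matrix.cons_val_fin_one]
      have := ha.2.2
      rw [Matrix.det_fin_two] at this
      linear_combination this

/-- The square of the upper left entry. -/
def sqHom (G : Subgroup GL2) : ↥(borelOne G) →* k where
  toFun g := ((g.1 : M2) 0 0) ^ 2
  map_one' := by simp
  map_mul' a b := by
    show (((a.1 * b.1 : GL2) : M2) 0 0) ^ 2 = _
    rw [Units.val_mul, Matrix.mul_apply, Fin.sum_univ_two, b.2.2.1, mul_zero, add_zero, mul_pow]

theorem sqHom_apply (G : Subgroup GL2) (g : ↥(borelOne G)) :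
    sqHom G g = ((g.1 : M2) 0 0) ^ 2 := rfl

/-- The squares of the upper left entries, as units. -/
def torus (G : Subgroup GL2) : Subgroup kˣ := (sqHom G).toHomUnits.range

theorem upper_diag {g : GL2} (h10 : (g : M2) 1 0 = 0) (hdet : Matrix.det (g : M2) = 1) :
    (g : M2) 0 0 * (g : M2) 1 1 = 1 := by
  rw [Matrix.det_fin_two, h10, mul_zero, sub_zero] at hdet
  exact hdet

section Count

variable (p : ℕ) [Fact p.Prime] [CharP k p] [Finite k] (hp : p ≠ 2)

include hp in
theorem two_ne : (2 : k) ≠ 0 := fun h => hp (by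
  have h' : ((2 : ℕ) : k) = 0 := by exact_mod_cast h
  rw [CharP.cast_eq_zero_iff k p] at h'
  exact (Nat.prime_dvd_prime_iff_eq Fact.out Nat.prime_two).1 h')

/-- The elements of determinant one. -/
def detOne (G : Subgroup GL2) : Subgroup GL2 := G ⊓ (Matrix.GeneralLinearGroup.det).ker

theorem mem_detOne {G : Subgroup GL2} {g : GL2} :
    g ∈ detOne G ↔ g ∈ G ∧ Matrix.det (g : M2) = 1 := by
  simp [detOne, MonoidHom.mem_ker, Units.ext_iff]

theorem upperGrp_det {g : GL2} (h : g ∈ upperGrp k) : Matrix.det (g : M2) = 1 := by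
  obtain ⟨x, rfl⟩ := mem_upperGrp.1 h
  simp [Matrix.det_fin_two]

/-- The point at infinity. -/
def ptInf (k : Type) [Field k] : ℙ k (Fin 2 → k) :=
  Projectivization.mk k ![1, 0] fun h => by simpa using congrFun h 0

theorem fix_mk (g : GL2) {v : Fin 2 → k} (hv : v ≠ 0) :
    g • Projectivization.mk k v hv = Projectivization.mk k v hv ↔
      ∃ a : k, (g : M2).mulVec v = a • v := by
  rw [Projectivization.smul_mk, Projectivization.mk_eq_mk_iff']
  exact ⟨fun ⟨a, h⟩ => ⟨a, h.symm⟩, fun ⟨a, h⟩ => ⟨a, h.symm⟩⟩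

theorem fix_inf (g : GL2) : g • ptInf k = ptInf k ↔ (g : M2) 1 0 = 0 := by
  rw [ptInf, fix_mk]
  constructor
  · rintro ⟨a, h⟩
    simpa [mulVec_apply_two] using congrFun h 1
  · intro h
    exact ⟨(g : M2) 0 0, funext fun i => by fin_cases i <;> simp [mulVec_apply_two, h]⟩

theorem mk_ne_mk {g : GL2} {a b : k} {v w : Fin 2 → k} (hab : a ≠ b) (hv : v ≠ 0) (hw : w ≠ 0)
    (h1 : (g : M2).mulVec v = a • v) (h2 : (g : M2).mulVec w = b • w) :
    Projectivization.mk k v hv ≠ Projectivization.mk k w hw := fun h => by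
  obtain ⟨c, hc⟩ := (Projectivization.mk_eq_mk_iff' k v w hv hw).1 h
  subst hc
  rw [Matrix.mulVec_smul, h2, smul_smul, smul_smul, mul_comm c] at h1
  have := smul_left_injective k hw h1
  exact hab (mul_right_cancel₀ (fun hc0 : c = 0 => hv (by rw [hc0, zero_smul])) this).symm

/-- A non scalar split element fixes one or two points. -/
theorem card_fixed [Fintype Pt] {G : Subgroup GL2} (hG : Big G) {g : GL2} (hg : g ∈ G)
    (hsc : ∀ a : k, (g : M2) ≠ a • 1) :
    (Finset.univ.filter fun x : Pt => g • x = x).card =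
      if Matrix.trace (g : M2) ^ 2 - 4 * Matrix.det (g : M2) = 0 then 1 else 2 := by
  obtain ⟨a, ha⟩ := hG.split g hg
  set b := Matrix.trace (g : M2) - a
  have hb : b ^ 2 - Matrix.trace (g : M2) * b + Matrix.det (g : M2) = 0 := by
    simp only [b]; linear_combination ha
  obtain ⟨v, hv, hgv⟩ := exists_eigenvector ha
  obtain ⟨w, hw, hgw⟩ := exists_eigenvector hb
  have hset : (Finset.univ.filter fun x : Pt => g • x = x) =
      {Projectivization.mk k v hv, Projectivization.mk k w hw} := by
    ext x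
    induction x using Projectivization.ind with
    | h u hu =>
      rw [Finset.mem_filter, Finset.mem_insert, Finset.mem_singleton,
        Projectivization.mk_eq_mk_iff' k u v hu hv, Projectivization.mk_eq_mk_iff' k u w hu hw,
        fix_mk]
      constructor
      · rintro ⟨-, c, hc⟩
        have hd : Matrix.det ((g : M2) - c • (1 : M2)) = 0 :=
          Matrix.exists_mulVec_eq_zero_iff.1 ⟨u, hu, by
            rw [Matrix.sub_mulVec, Matrix.smul_mulVec, Matrix.one_mulVec, hc, sub_self]⟩
        have hcr : c ^ 2 - Matrix.trace (g : M2) * c + Matrix.det (g : M2) = 0 := by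
          rw [Matrix.det_fin_two] at hd
          simp at hd
          rw [Matrix.trace_fin_two, Matrix.det_fin_two]
          linear_combination hd
        have e : (c - a) * (c - b) = 0 := by simp only [b]; linear_combination hcr - ha
        rcases mul_eq_zero.1 e with e | e <;> rw [sub_eq_zero] at e <;> subst e
        · obtain ⟨t, ht⟩ := eig_unique (hsc c) hv hgv hc
          exact Or.inl ⟨t, ht.symm⟩
        · obtain ⟨t, ht⟩ := eig_unique (hsc _) hw hgw hc
          exact Or.inr ⟨t, ht.symm⟩
      · rintro (⟨t, rfl⟩ | ⟨t, rfl⟩)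
        · exact ⟨Finset.mem_univ _, a, by rw [Matrix.mulVec_smul, hgv, smul_comm]⟩
        · exact ⟨Finset.mem_univ _, b, by rw [Matrix.mulVec_smul, hgw, smul_comm]⟩
  have hdisc : Matrix.trace (g : M2) ^ 2 - 4 * Matrix.det (g : M2) = (a - b) ^ 2 := by
    simp only [b]; linear_combination -4 * ha
  rw [hset, hdisc]
  split_ifs with h
  · have hab : a = b := sub_eq_zero.1 ((pow_eq_zero_iff two_ne_zero).1 h)
    obtain ⟨t, ht⟩ := eig_unique (hsc a) hv hgv (hab ▸ hgw)
    have e : Projectivization.mk k w hw = Projectivization.mk k v hv :=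
      (Projectivization.mk_eq_mk_iff' k w v hw hv).2 ⟨t, ht.symm⟩
    rw [e, Finset.pair_eq_singleton, Finset.card_singleton]
  · exact Finset.card_pair (mk_ne_mk (fun e => h (by rw [e, sub_self, sq, zero_mul])) hv hw hgv hgw)

include hp in
theorem neg_pow_p {g : GL2} {x : k} (h : (g : M2) = (-1 : k) • (up x : M2)) :
    ((g ^ p : GL2) : M2) = (-1 : k) • 1 := by
  have hu : ∀ n : ℕ, (up x : GL2) ^ n = up (n * x) := by
    intro n
    induction n with
    | zero => simp [up_zero]
    | succ n ih => rw [pow_succ, ih, ← up_add]; congr 1; push_cast; ring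
  rw [Units.val_pow_eq_pow_val, h, smul_pow, ← Units.val_pow_eq_pow_val, hu, CharP.cast_eq_zero,
    zero_mul, up_zero, Units.val_one, ((Fact.out : p.Prime).odd_of_ne_two hp).neg_one_pow]

include hp in
/-- A triangular element with entries `±1` is a scalar times a unitriangular element. -/
theorem exists_scalar_up {G : Subgroup GL2} {g : GL2} (hg : g ∈ detOne G)
    (h10 : (g : M2) 1 0 = 0) (h00 : ((g : M2) 0 0) ^ 2 = 1) :
    ∃ ζ ∈ detOne G, ∃ x ∈ addA G, (∃ a : k, (ζ : M2) = a • 1) ∧ ζ * up x = g := by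
  have hd := upper_diag h10 (mem_detOne.1 hg).2
  rcases sq_eq_one_iff.1 h00 with h | h <;> rw [h] at hd
  · refine ⟨1, one_mem _, (g : M2) 0 1, ?_, ⟨1, by simp⟩, ?_⟩ <;>
    have e : up ((g : M2) 0 1) = g := by
      ext i j
      fin_cases i <;> fin_cases j <;> simp_all
    · rw [mem_addA, e]; exact (mem_detOne.1 hg).1
    · rw [one_mul, e]
  · have hd' : (g : M2) 1 1 = -1 := by linear_combination -hd
    have hg' : (g : M2) = (-1 : k) • (up (-(g : M2) 0 1) : M2) := by
      ext i j
      fin_cases i <;> fin_cases j <;> simp [h, h10, hd']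
    have hz := neg_pow_p p hp hg'
    have e : g ^ p * up (-(g : M2) 0 1) = g := Units.ext (by
      rw [Units.val_mul, hz, smul_mul_assoc, one_mul, ← hg'])
    refine ⟨g ^ p, pow_mem hg p, -(g : M2) 0 1, ?_, ⟨_, hz⟩, e⟩
    rw [mem_addA, show up (-(g : M2) 0 1) = (g ^ p)⁻¹ * g from eq_inv_mul_of_mul_eq e]
    exact mul_mem (inv_mem (pow_mem (mem_detOne.1 hg).1 p)) (mem_detOne.1 hg).1

theorem scalar_sq {G : Subgroup GL2} {ζ : GL2} (hζ : ζ ∈ detOne G) {a : k}
    (h : (ζ : M2) = a • 1) : a ^ 2 = 1 := by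
  have := (mem_detOne.1 hζ).2
  rwa [h, Matrix.det_smul, Matrix.det_one, mul_one, Fintype.card_fin] at this

theorem noLine_detOne (h2 : (2 : k) ≠ 0) {G : Subgroup GL2} (hG : Big G) : NoLine (detOne G) := by
  refine noLine_of_commutators h2 hG _ (fun g hg n hn => ?_) fun g hg h hh => ?_
  · rw [mem_detOne] at hn ⊢
    refine ⟨mul_mem (mul_mem hg hn.1) (inv_mem hg), ?_⟩
    rw [Units.val_mul, Units.val_mul, Matrix.det_mul_right_comm, ← Units.val_mul, mul_inv_cancel,
      Units.val_one, one_mul]
    exact hn.2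
  · refine Subgroup.mem_inf.2 ⟨mul_mem (mul_mem (mul_mem hg hh) (inv_mem hg)) (inv_mem hh), ?_⟩
    simp [MonoidHom.mem_ker, mul_comm (Matrix.GeneralLinearGroup.det g)]

theorem up_pow (x : k) (n : ℕ) : (up x : GL2) ^ n = up (n * x) := by
  induction n with
  | zero => simp [up_zero]
  | succ n ih => rw [pow_succ, ih, ← up_add]; congr 1; push_cast; ring

/-- An element of order `p` of determinant one is conjugate to a unitriangular one. -/
theorem exists_conj_up {G : Subgroup GL2} (hU : ¬ p ∣ (G ⊓ upperGrp k).relIndex G) {u : GL2}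
    (hu : u ∈ detOne G) (hup : u ^ p = 1) :
    ∃ h ∈ detOne G, ∃ y : k, up y = h⁻¹ * u * h := by
  haveI : Finite GL2 := inferInstanceAs (Finite (M2)ˣ)
  set H := detOne G
  have hpu : IsPGroup p ↥((G ⊓ upperGrp k).subgroupOf H) := by
    rintro ⟨g, hg⟩
    obtain ⟨x, hx⟩ := mem_upperGrp.1 (Subgroup.mem_subgroupOf.1 hg).2
    have hpow : ∀ n : ℕ, (up x : GL2) ^ n = up (n * x) := by
      intro n
      induction n with
      | zero => simp [up_zero]
      | succ n ih => rw [pow_succ, ih, ← up_add]; congr 1; push_cast; ring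
    refine ⟨1, Subtype.ext (Subtype.ext ?_)⟩
    show (g : GL2) ^ p ^ 1 = 1
    rw [pow_one, ← hx, hpow, CharP.cast_eq_zero, zero_mul, up_zero]
  let u' : ↥H := ⟨u, hu⟩
  have hu'p : IsPGroup p ↥(Subgroup.zpowers u') := by
    rintro ⟨y, hy⟩
    obtain ⟨i, rfl⟩ := Subgroup.mem_zpowers_iff.1 hy
    refine ⟨1, Subtype.ext (Subtype.ext ?_)⟩
    show (((u' ^ i) ^ p ^ 1 : ↥H) : GL2) = 1
    rw [pow_one, Subgroup.coe_pow, Subgroup.coe_zpow, ← zpow_natCast, ← zpow_mul, mul_comm,
      zpow_mul, zpow_natCast, show (u' : GL2) = u from rfl, hup, one_zpow]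
  obtain ⟨Q, hQ⟩ := hu'p.exists_le_sylow
  have hidx : ¬ p ∣ ((G ⊓ upperGrp k).subgroupOf H).index := fun h => hU (h.trans (by
    rw [← Subgroup.relIndex_mul_relIndex (G ⊓ upperGrp k) H G
      (fun g hg => mem_detOne.2 ⟨hg.1, upperGrp_det hg.2⟩) inf_le_left]
    exact dvd_mul_right _ _))
  haveI : Finite (Sylow p ↥H) := inferInstance
  obtain ⟨h, hh⟩ := MulAction.exists_smul_eq ↥H (hpu.toSylow hidx) Q
  have hmem : u' ∈ (h • hpu.toSylow hidx : Sylow p ↥H) := by
    rw [hh]; exact hQ (Subgroup.mem_zpowers u')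
  rw [← SetLike.mem_coe, Sylow.coe_smul, Set.mem_smul_set_iff_inv_smul_mem] at hmem
  have hmem' : h⁻¹ * u' * h ∈ (G ⊓ upperGrp k).subgroupOf H := by
    simpa [MulAut.conj_apply, MulAut.smul_def] using hmem
  obtain ⟨-, hw⟩ := Subgroup.mem_subgroupOf.1 hmem'
  obtain ⟨y, hy⟩ := mem_upperGrp.1 hw
  exact ⟨h, h.2, y, hy⟩

/-- Exactly one further orbit has a stabiliser larger than the scalars. -/
theorem one_orbit {X : Type} [Fintype X] [DecidableEq X] (O : X → Finset X) (s : X → ℕ) (P₀ : X)
    {n z q t : ℕ} (hOsub : ∀ {x y : X}, y ∈ O x → O y = O x) (hself : ∀ x, x ∈ O x)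
    (hsconst : ∀ {x y : X}, y ∈ O x → s y = s x) (horb : ∀ x, (O x).card * (s x + z) = n)
    (hdvd : ∀ w, z ∣ s w + z) (ho : 2 ≤ (O P₀).card) (hz : 1 ≤ z) (ht : 1 ≤ t) (hq2 : 2 < q)
    (hn : n = (O P₀).card * (t * (z * q)))
    (hR : (∑ x ∈ (O P₀)ᶜ, s x) + (O P₀).card * (z * q) + 2 * z = n + 2 * (O P₀).card * z) :
    q ≤ 2 * t + 1 := by
  set o := (O P₀).card
  set R := ∑ x ∈ (O P₀)ᶜ, s x
  obtain ⟨y, hy, hys⟩ : ∃ y ∈ (O P₀)ᶜ, 1 ≤ s y := by
    by_contra hcon
    push Not at hcon
    have R0 : R = 0 := Finset.sum_eq_zero fun y hy => by have := hcon y hy; omega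
    rw [R0, zero_add, hn] at hR
    have e : o * q + 2 = o * (t * q) + 2 * o := by
      refine Nat.eq_of_mul_eq_mul_left hz ?_
      nlinarith
    rcases Nat.eq_or_lt_of_le ht with ht1 | ht1
    · rw [← ht1] at e; simp at e; omega
    · nlinarith [Nat.mul_le_mul_left o (Nat.mul_le_mul_right q ht1)]
  have hOy : O y ⊆ (O P₀)ᶜ := fun w hw => by
    rw [Finset.mem_compl] at hy ⊢
    intro hw'
    exact hy (hOsub hw' ▸ hOsub hw ▸ hself y)
  have hzdvd : ∀ w, 1 ≤ s w → 2 * z ≤ s w + z := fun w hw => by
    have hd := hdvd w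
    obtain ⟨c, hc⟩ := hd
    rcases c with _ | _ | c
    · omega
    · omega
    · nlinarith
  have hsumO : ∀ w, ∑ x ∈ O w, s x + (O w).card * z = n := fun w => by
    rw [Finset.sum_const_nat fun x hx => hsconst hx, ← Nat.mul_add]
    exact horb w
  have hhalf : ∀ w, 1 ≤ s w → 2 * ((O w).card * z) ≤ n := fun w hw => by
    calc 2 * ((O w).card * z) = (O w).card * (2 * z) := by ring
      _ ≤ (O w).card * (s w + z) := Nat.mul_le_mul_left _ (hzdvd w hw)
      _ = n := horb w
  -- there is one orbit
  have hRy : R = ∑ x ∈ O y, s x := by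
    rw [show R = ∑ x ∈ (O P₀)ᶜ, s x from rfl, ← Finset.sum_sdiff hOy]
    suffices h0 : ∑ x ∈ (O P₀)ᶜ \ O y, s x = 0 by rw [h0, zero_add]
    refine Finset.sum_eq_zero fun w hw => ?_
    by_contra hne
    rw [Finset.mem_sdiff] at hw
    have hsub : O w ⊆ (O P₀)ᶜ \ O y := fun x hx => by
      rw [Finset.mem_sdiff, Finset.mem_compl] at *
      exact ⟨fun hx' => hw.1 (hOsub hx' ▸ hOsub hx ▸ hself w),
        fun hx' => hw.2 (hOsub hx' ▸ hOsub hx ▸ hself w)⟩
    have b1 : R = ∑ x ∈ (O P₀)ᶜ \ O y, s x + ∑ x ∈ O y, s x := (Finset.sum_sdiff hOy).symm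
    have b2 := Finset.sum_le_sum_of_subset (f := s) hsub
    have b3 := hsumO w
    have b4 := hhalf w (by omega)
    have b5 := hsumO y
    have b6 := hhalf y hys
    have b7 : 2 * o * z + 1 ≤ o * (z * q) + 2 * z := by
      have : o * z * 3 ≤ o * z * q := Nat.mul_le_mul_left _ hq2
      nlinarith
    omega
  have hb : (O y).card + 2 * o = o * q + 2 := by
    refine Nat.eq_of_mul_eq_mul_left hz ?_
    have b5 := hsumO y
    rw [← hRy] at b5
    nlinarith
  have hoy : (O y).card * (s y + z) = n := horb y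
  rcases Nat.lt_or_ge (t * z) (s y + z) with h | h
  · -- the stabiliser is larger than the torus
    have hlt : (t + 1) * z ≤ s y + z := by
      have hdz := hdvd y
      obtain ⟨d, hd⟩ := hdz
      rw [hd, mul_comm z d] at h ⊢
      exact Nat.mul_le_mul_right z (Nat.lt_of_mul_lt_mul_right h)
    have h9 : (O y).card * ((t + 1) * z) ≤ n := hoy ▸ Nat.mul_le_mul_left _ hlt
    rw [hn] at h9
    have h10 : (O y).card * (t + 1) ≤ o * (t * q) := by
      refine Nat.le_of_mul_le_mul_right ?_ hz
      nlinarith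
    nlinarith
  · exfalso
    have h9 : n ≤ (O y).card * (t * z) := hoy ▸ Nat.mul_le_mul_left _ h
    rw [hn] at h9
    have h10 : o * q ≤ (O y).card := by
      refine Nat.le_of_mul_le_mul_right ?_ (Nat.mul_pos ht hz)
      nlinarith
    omega

include hp in
/-- The counting lemma. -/
theorem card_addA_le {G : Subgroup GL2} (hG : Big G)
    (hU : ¬ p ∣ (G ⊓ upperGrp k).relIndex G) (hA : ∃ x ∈ addA G, x ≠ 0) :
    Nat.card ↥(addA G) ≤ 2 * Nat.card ↥(torus G) + 1 := by
  have h2 := two_ne (k := k) p hp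
  haveI : Finite GL2 := inferInstanceAs (Finite (M2)ˣ)
  letI := Fintype.ofFinite k
  letI := Fintype.ofFinite GL2
  letI := Fintype.ofFinite Pt
  set H := detOne G
  set Z : Finset GL2 := Finset.univ.filter fun g => g ∈ H ∧ ∃ a : k, (g : M2) = a • 1
  set N : Finset GL2 := Finset.univ.filter fun g => g ∈ H ∧ ∀ a : k, (g : M2) ≠ a • 1
  set Par : Finset GL2 := N.filter fun g => Matrix.trace (g : M2) ^ 2 - 4 * Matrix.det (g : M2) = 0
  set s : Pt → ℕ := fun x => (N.filter fun g => g • x = x).card
  set n := Nat.card ↥H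
  set z := Z.card
  set q := Nat.card ↥(addA G)
  set t := Nat.card ↥(torus G)
  have hz : 1 ≤ z := Finset.card_pos.2 ⟨1, by
    simp only [Z, Finset.mem_filter, Finset.mem_univ, true_and]; exact ⟨one_mem _, 1, by simp⟩⟩
  have hH : (Finset.univ.filter fun g : GL2 => g ∈ H).card = n := by
    rw [← Fintype.card_subtype, ← Nat.card_eq_fintype_card]
  have hNn : N.card + z = n := by
    rw [← hH, ← Finset.card_union_of_disjoint]
    · congr 1
      ext g
      simp only [N, Z, Finset.mem_union, Finset.mem_filter, Finset.mem_univ, true_and]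
      constructor
      · rintro (h | h) <;> exact h.1
      · intro h
        by_cases hs : ∃ a : k, (g : M2) = a • 1
        · exact Or.inr ⟨h, hs⟩
        · push Not at hs
          exact Or.inl ⟨h, hs⟩
    · refine Finset.disjoint_left.2 fun g hg hg' => ?_
      simp only [N, Z, Finset.mem_filter] at hg hg'
      obtain ⟨a, ha⟩ := hg'.2.2
      exact hg.2.2 a ha
  -- the double count
  have hsum : (∑ x : Pt, s x) + Par.card = 2 * N.card := by
    have e : ∑ x : Pt, s x = ∑ g ∈ N, (Finset.univ.filter fun x : Pt => g • x = x).card := by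
      simp only [s, Finset.card_filter]
      exact Finset.sum_comm
    rw [e, Finset.card_filter, ← Finset.sum_add_distrib, mul_comm, ← smul_eq_mul,
      ← Finset.sum_const]
    refine Finset.sum_congr rfl fun g hg => ?_
    simp only [N, Finset.mem_filter] at hg
    rw [card_fixed hG (mem_detOne.1 hg.2.1).1 hg.2.2]
    split_ifs <;> rfl
  -- stabilisers
  have hsplit : ∀ x : Pt, s x + z =
      (Finset.univ.filter fun g : GL2 => g ∈ H ∧ g • x = x).card := fun x => by
    rw [← Finset.card_union_of_disjoint]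
    · congr 1
      ext g
      simp only [N, Z, Finset.mem_union, Finset.mem_filter, Finset.mem_univ, true_and]
      constructor
      · rintro (h | ⟨h, a, ha⟩)
        · exact ⟨h.1.1, h.2⟩
        · refine ⟨h, ?_⟩
          induction x using Projectivization.ind with
          | h v hv => exact (fix_mk g hv).2 ⟨a, by rw [ha, Matrix.smul_mulVec, Matrix.one_mulVec]⟩
      · intro h
        by_cases hs : ∃ a : k, (g : M2) = a • 1
        · exact Or.inr ⟨h.1, hs⟩
        · push Not at hs
          exact Or.inl ⟨⟨h.1, hs⟩, h.2⟩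
    · refine Finset.disjoint_left.2 fun g hg hg' => ?_
      simp only [N, Z, Finset.mem_filter] at hg hg'
      obtain ⟨a, ha⟩ := hg'.2.2
      exact hg.1.2.2 a ha
  let O : Pt → Finset Pt := fun x => (Finset.univ.filter fun g : GL2 => g ∈ H).image (· • x)
  have horb : ∀ x, (O x).card * (s x + z) = n := fun x => by
    rw [← hH, Finset.card_eq_sum_card_image (· • x) (Finset.univ.filter fun g : GL2 => g ∈ H),
      hsplit, Finset.sum_const_nat]
    intro y hy
    obtain ⟨g₀, hg₀, rfl⟩ := Finset.mem_image.1 hy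
    simp only [Finset.mem_filter, Finset.mem_univ, true_and] at hg₀
    refine Finset.card_equiv (Equiv.mulLeft g₀⁻¹) fun g => ?_
    simp only [Finset.mem_filter, Finset.mem_univ, true_and, Equiv.coe_mulLeft, mul_smul,
      inv_smul_eq_iff]
    exact and_congr_left fun _ => (mul_mem_cancel_left (inv_mem hg₀)).symm
  have hOsub : ∀ {x y : Pt}, y ∈ O x → O y = O x := fun {x y} hy => by
    obtain ⟨g₀, hg₀, rfl⟩ := Finset.mem_image.1 hy
    simp only [Finset.mem_filter, Finset.mem_univ, true_and] at hg₀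
    ext w
    simp only [O, Finset.mem_image, Finset.mem_filter, Finset.mem_univ, true_and, smul_smul]
    exact ⟨fun ⟨a, ha, h⟩ => ⟨a * g₀, mul_mem ha hg₀, h⟩,
      fun ⟨a, ha, h⟩ => ⟨a * g₀⁻¹, mul_mem ha (inv_mem hg₀), by rwa [inv_mul_cancel_right]⟩⟩
  have hself : ∀ x, x ∈ O x := fun x =>
    Finset.mem_image.2 ⟨1, by simp [one_mem], one_smul _ _⟩
  have hsconst : ∀ {x y : Pt}, y ∈ O x → s y = s x := fun {x y} hy => by
    have a := horb y
    rw [hOsub hy, ← horb x] at a
    have hpos : 0 < (O x).card := Finset.card_pos.2 ⟨x, hself x⟩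
    have := Nat.eq_of_mul_eq_mul_left hpos a
    omega
  -- the point at infinity
  set P₀ := ptInf k with hP
  set K : Finset GL2 := Finset.univ.filter fun g => g ∈ H ∧ (g : M2) 1 0 = 0 ∧ ((g : M2) 0 0) ^ 2 = 1
  have hK : K.card = z * q := by
    rw [show q = (Finset.univ.filter fun x : k => x ∈ addA G).card by
      rw [← Fintype.card_subtype, ← Nat.card_eq_fintype_card]]
    rw [← Finset.card_product]
    symm
    refine Finset.card_bij (fun a _ => a.1 * up a.2) (fun a ha => ?_) (fun a ha b hb h => ?_)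
      fun g hg => ?_
    · simp only [Z, Finset.mem_product, Finset.mem_filter, Finset.mem_univ, true_and] at ha
      obtain ⟨⟨hζ, c, hc⟩, hx⟩ := ha
      refine Finset.mem_filter.2 ⟨Finset.mem_univ _,
        mul_mem hζ (mem_detOne.2 ⟨hx, by simp [Matrix.det_fin_two]⟩), ?_, ?_⟩
      · simp [hc]
      · simpa [hc] using scalar_sq hζ hc
    · simp only [Z, Finset.mem_product, Finset.mem_filter, Finset.mem_univ, true_and] at ha hb
      obtain ⟨c, hc⟩ := ha.1.2
      obtain ⟨d, hd⟩ := hb.1.2
      have hcd : c = d := by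
        simpa [hc, hd] using congrArg (fun g : GL2 => (g : M2) 0 0) h
      have e : a.1 = b.1 := Units.ext (by rw [hc, hd, hcd])
      rw [e] at h
      exact Prod.ext e (up_injective (mul_left_cancel h))
    · simp only [K, Finset.mem_filter, Finset.mem_univ, true_and] at hg
      obtain ⟨ζ, hζ, x, hx, hsc, e⟩ := exists_scalar_up p hp hg.1 hg.2.1 hg.2.2
      exact ⟨(ζ, x), Finset.mem_product.2 ⟨Finset.mem_filter.2 ⟨Finset.mem_univ _, hζ, hsc⟩,
        Finset.mem_filter.2 ⟨Finset.mem_univ _, hx⟩⟩, e⟩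
  have hstab : s P₀ + z = t * (z * q) := by
    rw [hsplit, ← hK]
    have hB : ∀ g, g ∈ borelOne G ↔ g ∈ H ∧ g • P₀ = P₀ := fun g => by
      rw [fix_inf, mem_detOne]
      exact ⟨fun h => ⟨⟨h.1, h.2.2⟩, h.2.1⟩, fun h => ⟨h.1.1, h.2, h.1.2⟩⟩
    have e1 : (Finset.univ.filter fun g : GL2 => g ∈ H ∧ g • P₀ = P₀).card =
        Nat.card ↥(borelOne G) := by
      rw [Nat.card_eq_fintype_card, Fintype.card_subtype]
      exact congrArg Finset.card (Finset.filter_congr fun g _ => (hB g).symm)
    have e2 : K.card = Nat.card ↥((sqHom G).toHomUnits.ker) := by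
      rw [← Fintype.card_coe K, ← Nat.card_eq_fintype_card]
      refine Nat.card_congr
        { toFun := fun g => ⟨⟨g.1, ?_⟩, ?_⟩
          invFun := fun g => ⟨g.1.1, ?_⟩
          left_inv := fun g => rfl
          right_inv := fun g => rfl }
      · have := g.2
        simp only [K, Finset.mem_filter] at this
        exact (hB _).2 ⟨this.2.1, (fix_inf _).2 this.2.2.1⟩
      · have := g.2
        simp only [K, Finset.mem_filter] at this
        exact MonoidHom.mem_ker.2 (Units.ext this.2.2.2)
      · have := congrArg Units.val (MonoidHom.mem_ker.1 g.2)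
        simp only [K, Finset.mem_filter, Finset.mem_univ, true_and]
        exact ⟨((hB _).1 g.1.2).1, g.1.2.2.1, this⟩
    rw [e1, e2, ← Subgroup.card_mul_index ((sqHom G).toHomUnits.ker), Subgroup.index_ker,
      mul_comm]
    rfl
  -- parabolic elements
  have hPar : ∀ g ∈ Par, ∀ x : Pt, g • x = x → x ∈ O P₀ := by
    intro g hg x hx
    simp only [Par, N, Finset.mem_filter, Finset.mem_univ, true_and] at hg
    obtain ⟨⟨hgH, hgsc⟩, hdisc⟩ := hg
    have hdet := (mem_detOne.1 hgH).2
    set tr := Matrix.trace (g : M2)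
    have htr2 : tr ^ 2 = 4 := by rw [hdet] at hdisc; linear_combination hdisc
    have hCH : (g : M2) * g = tr • (g : M2) - 1 := by
      have hd := hdet
      rw [Matrix.det_fin_two] at hd
      ext i j
      fin_cases i <;> fin_cases j <;>
        simp [tr, Matrix.trace_fin_two, Matrix.mul_apply, Fin.sum_univ_two]
      · linear_combination -hd
      · ring
      · ring
      · linear_combination -hd
    set u := g * g
    have htr0 : tr ≠ 0 := fun h0 => by
      rw [h0, zero_pow two_ne_zero, show (4 : k) = 2 * 2 by norm_num, eq_comm, mul_self_eq_zero] at htr2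
      exact h2 htr2
    have husc : ∀ a : k, (u : M2) ≠ a • 1 := fun a ha => by
      refine hgsc ((a + 1) / tr) ?_
      rw [Units.val_mul, hCH] at ha
      rw [div_eq_inv_mul, mul_smul, eq_comm, inv_smul_eq_iff₀ htr0, add_smul, one_smul]
      exact (sub_eq_iff_eq_add.1 ha).symm
    have hu2 : ((u : M2) - 1) * ((u : M2) - 1) = 0 := by
      rw [Units.val_mul, hCH]
      calc (tr • (g : M2) - 1 - 1) * (tr • (g : M2) - 1 - 1)
          = (tr * tr) • ((g : M2) * g) - (4 * tr) • (g : M2) + 4 • (1 : M2) := by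
            simp only [sub_mul, mul_sub, smul_mul_assoc, mul_smul_comm, mul_one, one_mul]
            module
        _ = 0 := by
            rw [hCH, ← sq, htr2, smul_sub, smul_smul, mul_comm (4 : k)]
            module
    have hup : u ^ p = 1 := by
      refine Units.ext ?_
      have hpe : ∀ n : ℕ, (u : M2) ^ n = 1 + (n : k) • ((u : M2) - 1) := by
        intro n
        induction n with
        | zero => simp
        | succ n ih =>
          rw [pow_succ, ih]
          calc (1 + (n : k) • ((u : M2) - 1)) * (u : M2)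
              = (u : M2) + (n : k) • (((u : M2) - 1) * ((u : M2) - 1) + ((u : M2) - 1)) := by
                simp only [add_mul, one_mul, smul_mul_assoc, mul_sub, sub_mul, mul_one]
                module
            _ = _ := by rw [hu2, zero_add]; push_cast; module
      rw [Units.val_pow_eq_pow_val, hpe, CharP.cast_eq_zero, zero_smul, add_zero, Units.val_one]
    obtain ⟨h, hhH, y, hy⟩ := exists_conj_up p hU (mul_mem hgH hgH) hup
    have hfix : u • (h • P₀) = h • P₀ := by
      have : (h⁻¹ * u * h) • P₀ = P₀ := by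
        rw [← hy, fix_inf]; simp
      rw [mul_smul, mul_smul, inv_smul_eq_iff] at this
      exact this
    have hufix : u • x = x := by rw [mul_smul, hx, hx]
    have hone := card_fixed hG (mem_detOne.1 (mul_mem hgH hgH)).1 husc
    rw [if_pos] at hone
    · obtain ⟨w, hw⟩ := Finset.card_eq_one.1 hone
      have a1 : x ∈ ({w} : Finset Pt) := hw ▸ Finset.mem_filter.2 ⟨Finset.mem_univ _, hufix⟩
      have a2 : h • P₀ ∈ ({w} : Finset Pt) :=
        hw ▸ Finset.mem_filter.2 ⟨Finset.mem_univ _, hfix⟩
      rw [Finset.mem_singleton] at a1 a2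
      rw [a1, ← a2]
      exact Finset.mem_image.2 ⟨h, Finset.mem_filter.2 ⟨Finset.mem_univ _, hhH⟩, rfl⟩
    · rw [Units.val_mul, Matrix.det_mul, hdet, one_mul, hCH, Matrix.trace_sub, Matrix.trace_smul,
        Matrix.trace_one, Fintype.card_fin, smul_eq_mul, ← sq tr, htr2]
      norm_num
  have hParP : (Par.filter fun g => g • P₀ = P₀).card + z = z * q := by
    rw [← hK, ← Finset.card_union_of_disjoint]
    · congr 1
      ext g
      simp only [Par, N, K, Z, Finset.mem_union, Finset.mem_filter, Finset.mem_univ, true_and]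
      rw [show (g • P₀ = P₀) = ((g : M2) 1 0 = 0) from propext (fix_inf g)]
      constructor
      · rintro (⟨⟨⟨hg, -⟩, hd⟩, h10⟩ | ⟨hg, a, ha⟩)
        · refine ⟨hg, h10, ?_⟩
          have e := upper_diag h10 (mem_detOne.1 hg).2
          rw [(mem_detOne.1 hg).2, Matrix.trace_fin_two] at hd
          have e2 : ((g : M2) 0 0 - (g : M2) 1 1) ^ 2 = 0 := by linear_combination hd - 4 * e
          rw [pow_eq_zero_iff two_ne_zero, sub_eq_zero] at e2
          rw [sq]
          nth_rewrite 2 [e2]
          exact e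
        · exact ⟨hg, by simp [ha], by simpa [ha] using scalar_sq hg ha⟩
      · rintro ⟨hg, h10, h00⟩
        by_cases hs : ∃ a : k, (g : M2) = a • 1
        · exact Or.inr ⟨hg, hs⟩
        push Not at hs
        refine Or.inl ⟨⟨⟨hg, hs⟩, ?_⟩, h10⟩
        have e := upper_diag h10 (mem_detOne.1 hg).2
        have e11 : (g : M2) 1 1 = (g : M2) 0 0 := by
          linear_combination (g : M2) 0 0 * e - (g : M2) 1 1 * h00
        rw [(mem_detOne.1 hg).2, Matrix.trace_fin_two, e11]
        linear_combination 4 * h00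
    · refine Finset.disjoint_left.2 fun g hg hg' => ?_
      simp only [Par, N, Z, Finset.mem_filter] at hg hg'
      obtain ⟨a, ha⟩ := hg'.2.2
      exact hg.1.1.2.2 a ha
  have hParcard : Par.card = (O P₀).card * (Par.filter fun g => g • P₀ = P₀).card := by
    have e : ∀ g ∈ Par, ((O P₀).filter fun x => g • x = x).card = 1 := fun g hg => by
      have h1 : (O P₀).filter (fun x => g • x = x) =
          Finset.univ.filter fun x : Pt => g • x = x := by
        ext x
        simp only [Finset.mem_filter, Finset.mem_univ, true_and, and_iff_right_iff_imp]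
        exact hPar g hg x
      simp only [Par, N, Finset.mem_filter, Finset.mem_univ, true_and] at hg
      rw [h1, card_fixed hG (mem_detOne.1 hg.1.1).1 hg.1.2, if_pos hg.2]
    calc Par.card = ∑ g ∈ Par, ((O P₀).filter fun x => g • x = x).card := by
          rw [Finset.sum_congr rfl e, Finset.sum_const, smul_eq_mul, mul_one]
      _ = ∑ x ∈ O P₀, (Par.filter fun g => g • x = x).card := by
          simp only [Finset.card_filter]
          exact Finset.sum_comm
      _ = _ := by
          refine Finset.sum_const_nat fun x hx => ?_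
          obtain ⟨h, hh, rfl⟩ := Finset.mem_image.1 hx
          simp only [Finset.mem_filter, Finset.mem_univ, true_and] at hh
          refine Finset.card_equiv (MulAut.conj h⁻¹).toEquiv fun g => ?_
          simp only [Par, N, Finset.mem_filter, Finset.mem_univ, true_and, MulEquiv.toEquiv_eq_coe,
            EquivLike.coe_coe, MulAut.conj_apply, inv_inv, mul_smul, inv_smul_eq_iff]
          have hm : h⁻¹ * g * h ∈ H ↔ g ∈ H :=
            ⟨fun hm => by simpa [mul_assoc] using mul_mem (mul_mem hh hm) (inv_mem hh),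
              fun hm => mul_mem (mul_mem (inv_mem hh) hm) hh⟩
          have hv : ((h⁻¹ * g * h : GL2) : M2) = (h⁻¹ : GL2) * (g : M2) * h := by
            simp only [Units.val_mul]
          have hsc' : (∀ a : k, (((h⁻¹ * g * h : GL2) : M2)) ≠ a • 1) ↔ ∀ a : k, (g : M2) ≠ a • 1 := by
            refine forall_congr' fun a => not_congr ⟨fun e => ?_, fun e => by
              rw [hv, e, mul_smul_comm, mul_one, smul_mul_assoc, ← Units.val_mul, inv_mul_cancel,
                Units.val_one]⟩
            have e' := congrArg (fun X : M2 => (h : M2) * X * (h⁻¹ : GL2)) e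
            simpa [hv, mul_assoc] using e'
          rw [hm, hsc', hv, Matrix.trace_units_conj', Matrix.det_units_conj']
  -- assembling
  set o := (O P₀).card
  have ho : 2 ≤ o := by
    obtain ⟨g, hg, hgv⟩ := noLine_detOne h2 hG ![1, 0] fun h => by simpa using congrFun h 0
    refine Finset.one_lt_card.2 ⟨P₀, hself _, g • P₀,
      Finset.mem_image.2 ⟨g, Finset.mem_filter.2 ⟨Finset.mem_univ _, hg⟩, rfl⟩, fun e => ?_⟩
    obtain ⟨a, ha⟩ := (fix_mk g _).1 e.symm
    exact hgv a ha
  have hn : n = o * (t * (z * q)) := by rw [← hstab]; exact (horb P₀).symm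
  have hinf : ∑ x ∈ O P₀, s x + o * z = n := by
    rw [Finset.sum_const_nat fun x hx => hsconst hx, ← Nat.mul_add]
    exact horb P₀
  set R := ∑ x ∈ (O P₀)ᶜ, s x
  have hR : R + o * (z * q) + 2 * z = n + 2 * o * z := by
    have a1 := Finset.sum_compl_add_sum (O P₀) s
    have a2 : Par.card + o * z = o * (z * q) := by rw [hParcard, ← Nat.mul_add, hParP]
    change R + _ = _ at a1
    have a3 : 2 * o * z = 2 * (o * z) := by ring
    omega
  have hq2 : 2 < q := by
    obtain ⟨x, hx, hx0⟩ := hA
    have h3 : (3 : ℕ) ≤ p := (Fact.out : p.Prime).two_le.lt_of_ne (Ne.symm hp)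
    have hord : addOrderOf (⟨x, hx⟩ : ↥(addA G)) = p := by
      refine addOrderOf_eq_prime (Subtype.ext ?_) fun e => hx0 (congrArg Subtype.val e)
      show (p : ℕ) • x = 0
      rw [nsmul_eq_mul, CharP.cast_eq_zero, zero_mul]
    have hle : p ≤ q := hord ▸ Nat.le_of_dvd Nat.card_pos (addOrderOf_dvd_natCard _)
    omega
  have ht : 1 ≤ t := Nat.card_pos
  have hdvd : ∀ w, z ∣ s w + z := fun w => by
    let Zs : Subgroup GL2 :=
      { carrier := {g | g ∈ H ∧ ∃ a : k, (g : M2) = a • 1}
        one_mem' := ⟨one_mem _, 1, by simp⟩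
        mul_mem' := fun {a b} ⟨ha, c, hc⟩ ⟨hb, d, hd⟩ => ⟨mul_mem ha hb, c * d, by
          rw [Units.val_mul, hc, hd, smul_mul_smul_comm, mul_one]⟩
        inv_mem' := fun {a} ⟨ha, c, hc⟩ => ⟨inv_mem ha, c, by
          have e := val_inv_eq a
          rw [(mem_detOne.1 ha).2, one_smul] at e
          rw [e, hc]
          ext i j
          fin_cases i <;> fin_cases j <;> simp⟩ }
    have hle : Zs ≤ H ⊓ MulAction.stabilizer GL2 w := fun g hg => ⟨hg.1, by
      obtain ⟨a, ha⟩ := hg.2
      refine MulAction.mem_stabilizer_iff.2 ?_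
      induction w using Projectivization.ind with
      | h v hv => exact (fix_mk g hv).2 ⟨a, by rw [ha, Matrix.smul_mulVec, Matrix.one_mulVec]⟩⟩
    have c1 : Nat.card ↥Zs = z := by
      rw [Nat.card_eq_fintype_card, Fintype.card_subtype]
      refine congrArg Finset.card ?_
      ext g
      simp only [Z, Finset.mem_filter, Finset.mem_univ, true_and]
      rfl
    have c2 : Nat.card ↥(H ⊓ MulAction.stabilizer GL2 w) = s w + z := by
      rw [hsplit, Nat.card_eq_fintype_card, Fintype.card_subtype]
      refine congrArg Finset.card ?_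
      ext g
      simp only [Finset.mem_filter, Finset.mem_univ, true_and, Subgroup.mem_inf,
        MulAction.mem_stabilizer_iff]
    rw [← c2, ← c1]
    exact Subgroup.card_dvd_of_le hle
  exact one_orbit O s P₀ hOsub hself hsconst horb hdvd ho hz ht hq2 hn hR

end Count

end FLTAgent.TWPrimes.Image
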